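import Fermat.Agent.CAR.RP.Dim
import Fermat.Agent.GAL.KLC.Main

/-!
# CAR / RP : the reduced chart rings of `X₀(M)` at a place `A ∣ ℓ`, `ℓ ∤ M`, `M` admissible (concrete instance)

* `FbC A M` : the residue field of the Gauss valuation of `FL ℚ̄ M`, inside `k_A((Q))`
* `RC A M`, `RCinf A M` : the two chart rings (`x̄`, `x̄⁻¹`), Dedekind domains
* `gC M = dim S₂(Γ₀(M))`
-/

set_option autoImplicit false

open ModularCurve AlgebraicCurve Polynomial

noncomputable section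

namespace Fermat.Agent.CAR.RP

open Fermat.Agent.GR Fermat.Agent.GAL Fermat.Agent.GAL.KL Fermat.Agent.GAL.KLC

/-- the residue field of level `M`. -/
abbrev FbC (A : ValuationSubring Qb) (M : ℕ) : IntermediateField (kA A) (LaurentSeries (kA A)) :=
  CTV.Fbar (isRed A M)

/-- the chart ring `R'` (functions regular outside the cusp `∞`). -/
abbrev RC (A : ValuationSubring Qb) (M : ℕ) : Subalgebra (kA A) (LaurentSeries (kA A)) :=
  RR (FbC A M) (xR (kA A) M)

/-- the chart ring at infinity (functions regular outside the zeros of `x̄`). -/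
abbrev RCinf (A : ValuationSubring Qb) (M : ℕ) : Subalgebra (kA A) (LaurentSeries (kA A)) :=
  RR (FbC A M) (xR (kA A) M)⁻¹

/-- the genus. -/
abbrev gC (M : ℕ) : ℕ := Module.finrank ℂ (CuspForm (CongruenceSubgroup.Gamma0 M) 2)

variable (M ℓ : ℕ) [NeZero M] (hM : AdmLevel M) (hℓ : ℓ.Prime) (hℓM : ¬ ℓ ∣ M)
  (A : ValuationSubring Qb) (hA : A.LiesOverPrime ℓ)

include hM hℓ hℓM hA

theorem isCurve_RC : IsCurve (FbC A M) (xR (kA A) M) (gC M) := by
  have hchar : CharP (kA A) ℓ := charP_residueField hℓ hA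
  obtain ⟨fZ, hfc, hf0, hfi⟩ := exists_cusp_basis M ℓ hℓ (kA A)
  have h := isCurve_of_count (isRed A M) (xF_mem_integer M A) (xF'_mem_integer M A) (mX_pos M)
    (order_rho_xF M A) (order_rho_xF' M A) (spansStatement M) (riStatement M)
    (fun j => psR (kA A) (fZ j)) hfi (fun j => order_psR_pos _ (hf0 j) (hfi.ne_zero j))
    (fun z hz j => ctStatement M ℓ hM hℓ hℓM A hA _ (z : FL Qb M).2 _ (hasRed_rho A M z)
      (by rw [rho_xF] at hz; exact hz) _ (hfc j))
  rwa [rho_xF] at h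

theorem finColen_RC : FinColen (kA A) (RC A M) := finColen_RR (isCurve_RC M ℓ hM hℓ hℓM A hA)

theorem isDedekindDomain_RC : IsDedekindDomain (RC A M) :=
  isDedekindDomain_RR (isCurve_RC M ℓ hM hℓ hℓM A hA)

theorem finColen_RCinf : FinColen (kA A) (RCinf A M) := by
  have hchar : CharP (kA A) ℓ := charP_residueField hℓ hA
  obtain ⟨fZ, hfc, hf0, hfi⟩ := exists_cusp_basis M ℓ hℓ (kA A)
  have h := finColen_RR_inv (isRed A M) (xF_mem_integer M A) (xF'_mem_integer M A) (mX_pos M)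
    (order_rho_xF M A) (order_rho_xF' M A) (spansStatement M) (riStatement M)
    (fun j => psR (kA A) (fZ j)) hfi (fun j => order_psR_pos _ (hf0 j) (hfi.ne_zero j))
    (fun z hz j => ctStatement M ℓ hM hℓ hℓM A hA _ (z : FL Qb M).2 _ (hasRed_rho A M z)
      (by rw [rho_xF] at hz; exact hz) _ (hfc j))
  rwa [rho_xF] at h

theorem isDedekindDomain_RCinf : IsDedekindDomain (RCinf A M) :=
  haveI := isIntegrallyClosed_RR (FbC A M) (xR (kA A) M)⁻¹
  isDedekindDomain_of_finColen (kA A) (finColen_RCinf M ℓ hM hℓ hℓM A hA)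

/-- the chart ring is the reduction of the integral chart ring `B' ∩ O_v`. -/
theorem exists_lift_RC {φ : LaurentSeries (kA A)} (hφ : φ ∈ RC A M) :
    ∃ z : FL Qb M, IsInt Qb (xF M) z ∧ HasRed A (z : LaurentSeries Qb) φ := by
  have hchar : CharP (kA A) ℓ := charP_residueField hℓ hA
  obtain ⟨fZ, hfc, hf0, hfi⟩ := exists_cusp_basis M ℓ hℓ (kA A)
  have hφ' : φ ∈ RR (FbC A M) (rho A M ⟨xF M, xF_mem_integer M A⟩) := by rw [rho_xF]; exact hφ
  obtain ⟨z, hz, rfl⟩ := exists_lift_RR (isRed A M) (xF_mem_integer M A) (xF'_mem_integer M A)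
    (mX_pos M) (order_rho_xF M A) (order_rho_xF' M A) (spansStatement M) (riStatement M)
    (fun j => psR (kA A) (fZ j)) hfi (fun j => order_psR_pos _ (hf0 j) (hfi.ne_zero j))
    (fun z hz j => ctStatement M ℓ hM hℓ hℓM A hA _ (z : FL Qb M).2 _ (hasRed_rho A M z)
      (by rw [rho_xF] at hz; exact hz) _ (hfc j)) hφ'
  exact ⟨z, hz, hasRed_rho A M z⟩

theorem exists_lift_RCinf {φ : LaurentSeries (kA A)} (hφ : φ ∈ RCinf A M) :
    ∃ z : FL Qb M, IsInt Qb (xF M)⁻¹ z ∧ HasRed A (z : LaurentSeries Qb) φ := by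
  have hchar : CharP (kA A) ℓ := charP_residueField hℓ hA
  obtain ⟨fZ, hfc, hf0, hfi⟩ := exists_cusp_basis M ℓ hℓ (kA A)
  have hφ' : φ ∈ RR (FbC A M) (rho A M ⟨xF M, xF_mem_integer M A⟩)⁻¹ := by rw [rho_xF]; exact hφ
  obtain ⟨z, hz, rfl⟩ := exists_lift_RR_inv (isRed A M) (xF_mem_integer M A) (xF'_mem_integer M A)
    (mX_pos M) (order_rho_xF M A) (order_rho_xF' M A) (spansStatement M) (riStatement M)
    (fun j => psR (kA A) (fZ j)) hfi (fun j => order_psR_pos _ (hf0 j) (hfi.ne_zero j))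
    (fun z hz j => ctStatement M ℓ hM hℓ hℓM A hA _ (z : FL Qb M).2 _ (hasRed_rho A M z)
      (by rw [rho_xF] at hz; exact hz) _ (hfc j)) hφ'
  exact ⟨z, hz, hasRed_rho A M z⟩

/-- **zeros = poles** at level `M`. -/
theorem colen_span_RC (H : RC A M) (hH : H ≠ 0) :
    (colen (kA A) (Ideal.span {H}) : ℤ) = -(H : LaurentSeries (kA A)).order :=
  (finrank_quot_span (isCurve_RC M ℓ hM hℓ hℓM A hA) H hH).2

end Fermat.Agent.CAR.RP
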