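import Fermat.Agent.GAL.KL.BasicInt
import Fermat.Prelude.Def_ModularCurve_ArithmeticGalois

/-!
# CAR / RP : the reduced chart ring `R'` of a curve with a `Q`-expansion.  Definitions (no sorry).

`k` a field, `Fb ⊆ k((Q))` a subfield containing `k` (the residue field of the Gauss valuation of level `M'`),
`ξ ∈ Fb`.

* `RR Fb ξ`   : the chart ring `{φ ∈ Fb | φ integral over k[ξ]}`, a `k`-subalgebra of `k((Q))`
* `RN Fb ξ N` : the elements of `RR Fb ξ` with a pole of order `≤ N` at `Q = 0`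
* `IsCurve Fb ξ g` : `dim RN Fb ξ N = N + 1 - g` for `N ≫ 0` ("`Q = 0` is the only point missing in the chart,
  and the genus is `g`")
* `colen k I` : the colength `dim_k R/I` of an ideal
-/

set_option autoImplicit false

open Polynomial

noncomputable section

namespace Fermat.Agent.CAR.RP

open Fermat.Agent.GAL.KL

variable {k : Type*} [Field k]

/-- the chart ring: elements of `Fb` integral over `k[ξ]`. -/
def RR (Fb : IntermediateField k (LaurentSeries k)) (ξ : LaurentSeries k) :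
    Subalgebra k (LaurentSeries k) where
  carrier := {φ | φ ∈ Fb ∧ IsInt k ξ φ}
  mul_mem' := fun h h' => ⟨Fb.mul_mem h.1 h'.1, h.2.mul h'.2⟩
  add_mem' := fun h h' => ⟨Fb.add_mem h.1 h'.1, h.2.add h'.2⟩
  algebraMap_mem' := fun c => ⟨Fb.algebraMap_mem c, IsInt.algebraMap c⟩

/-- the `HahnSeries` scalar multiplication is multiplication by the constant series. -/
theorem smul_eq_algebraMap_mul (c : k) (φ : LaurentSeries k) :
    c • φ = algebraMap k (LaurentSeries k) c * φ := by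
  rw [ModularCurve.algebraMap_laurentSeries_eq_single]
  exact (HahnSeries.C_mul_eq_smul).symm

theorem smul_mem_RR {Fb : IntermediateField k (LaurentSeries k)} {ξ φ : LaurentSeries k}
    (h : φ ∈ RR Fb ξ) (c : k) : c • φ ∈ RR Fb ξ := by
  rw [smul_eq_algebraMap_mul]
  exact (RR Fb ξ).mul_mem ((RR Fb ξ).algebraMap_mem c) h

theorem mem_RR {Fb : IntermediateField k (LaurentSeries k)} {ξ φ : LaurentSeries k} :
    φ ∈ RR Fb ξ ↔ φ ∈ Fb ∧ IsInt k ξ φ := Iff.rfl

/-- elements of the chart ring with a pole of order `≤ N` at `Q = 0`. -/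
def RN (Fb : IntermediateField k (LaurentSeries k)) (ξ : LaurentSeries k) (N : ℕ) :
    Submodule k (LaurentSeries k) where
  carrier := {φ | φ ∈ RR Fb ξ ∧ ∀ n : ℤ, n < -(N : ℤ) → φ.coeff n = 0}
  add_mem' := fun h h' => ⟨(RR Fb ξ).add_mem h.1 h'.1, fun n hn => by
    rw [HahnSeries.coeff_add, h.2 n hn, h'.2 n hn, add_zero]⟩
  zero_mem' := ⟨(RR Fb ξ).zero_mem, fun _ _ => rfl⟩
  smul_mem' := fun c φ h => ⟨smul_mem_RR h.1 c, fun n hn => by
    rw [HahnSeries.coeff_smul, h.2 n hn, smul_zero]⟩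

theorem mem_RN {Fb : IntermediateField k (LaurentSeries k)} {ξ φ : LaurentSeries k} {N : ℕ} :
    φ ∈ RN Fb ξ N ↔ φ ∈ RR Fb ξ ∧ ∀ n : ℤ, n < -(N : ℤ) → φ.coeff n = 0 := Iff.rfl

/-- **the curve hypothesis**: Riemann's theorem for the multiples of the point `Q = 0`. -/
def IsCurve (Fb : IntermediateField k (LaurentSeries k)) (ξ : LaurentSeries k) (g : ℕ) : Prop :=
  ∃ N₀ : ℕ, ∀ N, N₀ ≤ N → Module.Finite k (RN Fb ξ N) ∧ Module.finrank k (RN Fb ξ N) + g = N + 1

/-- the colength `dim_k R / I`. -/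
def colen (k : Type*) [Field k] {R : Type*} [CommRing R] [Algebra k R] (I : Ideal R) : ℕ :=
  Module.finrank k (R ⧸ I)

/-- every nonzero ideal has finite colength. -/
def FinColen (k : Type*) [Field k] (R : Type*) [CommRing R] [Algebra k R] : Prop :=
  ∀ I : Ideal R, I ≠ ⊥ → Module.Finite k (R ⧸ I)

/-- the part of an ideal of the chart ring with a pole of order `≤ N`. -/
def IN {Fb : IntermediateField k (LaurentSeries k)} {ξ : LaurentSeries k} (I : Ideal (RR Fb ξ))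
    (N : ℕ) : Submodule k (LaurentSeries k) where
  carrier := {φ | (∃ h : φ ∈ RR Fb ξ, (⟨φ, h⟩ : RR Fb ξ) ∈ I) ∧ ∀ n : ℤ, n < -(N : ℤ) → φ.coeff n = 0}
  add_mem' := by
    rintro φ ψ ⟨⟨h, hI⟩, h0⟩ ⟨⟨h', hI'⟩, h0'⟩
    exact ⟨⟨(RR Fb ξ).add_mem h h', I.add_mem hI hI'⟩, fun n hn => by
      rw [HahnSeries.coeff_add, h0 n hn, h0' n hn, add_zero]⟩
  zero_mem' := ⟨⟨(RR Fb ξ).zero_mem, I.zero_mem⟩, fun _ _ => rfl⟩
  smul_mem' := by
    rintro c φ ⟨⟨h, hI⟩, h0⟩
    refine ⟨⟨smul_mem_RR h c, ?_⟩, fun n hn => by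
      rw [HahnSeries.coeff_smul, h0 n hn, smul_zero]⟩
    have : (⟨c • φ, smul_mem_RR h c⟩ : RR Fb ξ) = algebraMap k (RR Fb ξ) c * ⟨φ, h⟩ :=
      Subtype.ext (smul_eq_algebraMap_mul c φ)
    rw [this]
    exact I.mul_mem_left _ hI

end Fermat.Agent.CAR.RP
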