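import Fermat.Agent.CAR.RP.QuotB1

/-!
# CAR / RP-B2 : dimension of `I ∩ R_N`
-/

set_option autoImplicit false

noncomputable section

namespace Fermat.Agent.CAR.RP

open Fermat.Agent.GAL.KL

variable {k : Type*} [Field k] {Fb : IntermediateField k (LaurentSeries k)} {ξ : LaurentSeries k}
  {g : ℕ}

/-! ## RP-B2 -/

/-- an element of `R_N` as an element of `R`. -/
def QuotB2_lift {N : ℕ} (φ : RN Fb ξ N) : RR Fb ξ := ⟨(φ : LaurentSeries k), (mem_RN.1 φ.2).1⟩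

theorem QuotB2_lift_add {N : ℕ} (φ ψ : RN Fb ξ N) :
    QuotB2_lift (φ + ψ) = QuotB2_lift φ + QuotB2_lift ψ := rfl

theorem QuotB2_lift_smul {N : ℕ} (c : k) (φ : RN Fb ξ N) :
    QuotB2_lift (c • φ) = algebraMap k (RR Fb ξ) c * QuotB2_lift φ :=
  Subtype.ext (smul_eq_algebraMap_mul c (φ : LaurentSeries k))

/-- the `k`-linear map `R_N → R / I`. -/
def QuotB2_toQuot (I : Ideal (RR Fb ξ)) (N : ℕ) : RN Fb ξ N →ₗ[k] (RR Fb ξ ⧸ I) where
  toFun φ := Ideal.Quotient.mk I (QuotB2_lift φ)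
  map_add' φ ψ := by
    rw [QuotB2_lift_add, map_add]
  map_smul' c φ := by
    have h : QuotB2_lift (c • φ) = c • QuotB2_lift φ := by
      rw [QuotB2_lift_smul, Algebra.smul_def]
    rw [h]
    rfl

theorem QuotB2_toQuot_apply (I : Ideal (RR Fb ξ)) (N : ℕ) (φ : RN Fb ξ N) :
    QuotB2_toQuot I N φ = Ideal.Quotient.mk I (QuotB2_lift φ) := rfl

theorem QuotB2_IN_le (I : Ideal (RR Fb ξ)) (N : ℕ) : IN I N ≤ RN Fb ξ N := by
  rintro φ ⟨⟨h, -⟩, h0⟩
  exact ⟨h, h0⟩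

theorem QuotB2_ker (I : Ideal (RR Fb ξ)) (N : ℕ) :
    LinearMap.ker (QuotB2_toQuot I N) = (IN I N).submoduleOf (RN Fb ξ N) := by
  ext φ
  rw [LinearMap.mem_ker, QuotB2_toQuot_apply, Ideal.Quotient.eq_zero_iff_mem]
  constructor
  · intro h
    exact ⟨⟨(mem_RN.1 φ.2).1, h⟩, (mem_RN.1 φ.2).2⟩
  · rintro ⟨⟨_, h⟩, -⟩
    exact h

/-- `R_N → R/I` is onto for `N ≫ 0`, with kernel `I ∩ R_N`. -/
theorem finrank_IN (hC : IsCurve Fb ξ g) (I : Ideal (RR Fb ξ)) (hI : I ≠ ⊥) :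
    ∃ N₀ : ℕ, ∀ N, N₀ ≤ N → Module.Finite k (IN I N) ∧
      Module.finrank k (IN I N) + g + colen k I = N + 1 := by
  classical
  have hfin : Module.Finite k (RR Fb ξ ⧸ I) := finColen_RR hC I hI
  obtain ⟨N₀, hN₀⟩ := hC
  -- lifts of a basis
  let b := Module.finBasis k (RR Fb ξ ⧸ I)
  choose r hr using fun i => Ideal.Quotient.mk_surjective (b i)
  choose n hn using fun i => exists_mem_RN (r i).2
  refine ⟨max N₀ (Finset.univ.sup n), fun N hN => ?_⟩
  have hN0 : N₀ ≤ N := le_trans (le_max_left _ _) hN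
  have hN1 : ∀ i, n i ≤ N := fun i =>
    le_trans (Finset.le_sup (Finset.mem_univ i)) (le_trans (le_max_right _ _) hN)
  obtain ⟨hfinN, hdim⟩ := hN₀ N hN0
  have hsurj : LinearMap.range (QuotB2_toQuot I N) = ⊤ := by
    rw [eq_top_iff, ← b.span_eq, Submodule.span_le]
    rintro _ ⟨i, rfl⟩
    exact ⟨⟨(r i : LaurentSeries k), RN_mono Fb ξ (hN1 i) (hn i)⟩, hr i⟩
  have hrn := LinearMap.finrank_range_add_finrank_ker (QuotB2_toQuot I N)
  rw [hsurj, finrank_top, QuotB2_ker,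
    (Submodule.submoduleOfEquivOfLe (QuotB2_IN_le I N)).finrank_eq] at hrn
  refine ⟨Submodule.finiteDimensional_of_le (QuotB2_IN_le I N), ?_⟩
  unfold colen
  omega

/-- the coefficients of index `-N, …, 0`. -/
def QuotB2_coeffs (Fb : IntermediateField k (LaurentSeries k)) (ξ : LaurentSeries k) (N : ℕ) :
    RN Fb ξ N →ₗ[k] (Fin (N + 1) → k) where
  toFun φ i := (φ : LaurentSeries k).coeff ((i : ℤ) - N)
  map_add' φ ψ := by
    ext i
    simp [HahnSeries.coeff_add]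
  map_smul' c φ := by
    ext i
    simp [HahnSeries.coeff_smul]

/-- upper bound valid for ALL `N` (used in dimension counts): `dim (I ∩ R_N) ≤ N + 1`, and
`dim R_N ≤ N + 1`. -/
theorem finrank_RN_le (Fb : IntermediateField k (LaurentSeries k)) (hconst : ∀ φ ∈ RR Fb ξ,
    (∀ n : ℤ, n < 1 → φ.coeff n = 0) → φ = 0) (N : ℕ) :
    Module.Finite k (RN Fb ξ N) ∧ Module.finrank k (RN Fb ξ N) ≤ N + 1 := by
  have hinj : Function.Injective (QuotB2_coeffs Fb ξ N) := by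
    rw [← LinearMap.ker_eq_bot, LinearMap.ker_eq_bot']
    intro φ hφ
    apply Subtype.ext
    refine hconst _ (mem_RN.1 φ.2).1 fun n hn => ?_
    by_cases hnN : n < -(N : ℤ)
    · exact (mem_RN.1 φ.2).2 n hnN
    · have h1 : 0 ≤ n + N := by omega
      have h2 : (n + N).toNat < N + 1 := by omega
      have h3 := congrFun hφ ⟨(n + N).toNat, h2⟩
      have h4 : (((n + N).toNat : ℕ) : ℤ) - N = n := by
        rw [Int.toNat_of_nonneg h1]; ring
      have h5 : QuotB2_coeffs Fb ξ N φ ⟨(n + N).toNat, h2⟩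
          = (φ : LaurentSeries k).coeff ((((n + N).toNat : ℕ) : ℤ) - N) := rfl
      rw [h5, h4] at h3
      exact h3
  refine ⟨Module.Finite.of_injective _ hinj, ?_⟩
  have := LinearMap.finrank_le_finrank_of_injective hinj
  rwa [Module.finrank_fin_fun] at this

end Fermat.Agent.CAR.RP
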