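import Fermat.Agent.CAR.RP.Quot

/-!
# CAR / RP-C : the chart ring is integrally closed, hence (for a curve) a Dedekind domain
-/

set_option autoImplicit false

noncomputable section

namespace Fermat.Agent.CAR.RP

open Fermat.Agent.GAL.KL

variable {k : Type*} [Field k]

instance (Fb : IntermediateField k (LaurentSeries k)) (ξ : LaurentSeries k) : IsDomain (RR Fb ξ) :=
  inferInstance

/-- transitivity of integrality, for ring homs. -/
theorem closed_isIntegralElem_trans {R R' L : Type*} [CommRing R] [CommRing R'] [CommRing L]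
    (f : R →+* L) (g : R' →+* L)
    (hg : ∀ r, f.IsIntegralElem (g r)) {x : L} (hx : g.IsIntegralElem x) :
    f.IsIntegralElem x := by
  let _ := f.toAlgebra
  let B := integralClosure R L
  let g' : R' →+* B := g.codRestrict B.toSubring (fun r => hg r)
  obtain ⟨p, hp, h⟩ := hx
  have hxB : IsIntegral B x := by
    refine ⟨p.map g', hp.map _, ?_⟩
    rw [Polynomial.eval₂_map]
    exact h
  exact isIntegral_trans (R := R) (A := B) x hxB

/-- transitivity: integral over the chart ring ⇒ integral over `k[ξ]`. -/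
theorem isInt_of_isIntegral (Fb : IntermediateField k (LaurentSeries k)) (ξ : LaurentSeries k)
    {φ : LaurentSeries k} (h : IsIntegral (RR Fb ξ) φ) : IsInt k ξ φ :=
  closed_isIntegralElem_trans _ (algebraMap (RR Fb ξ) (LaurentSeries k)) (fun r => r.2.2) h

/-- Embed `Frac R` into `k((Q))` (`IsFractionRing.lift`); the image lies in `Fb`; an integral element has its image in
`Fb`, integral over `k[ξ]` by `isInt_of_isIntegral`, so it lies in `R`. -/
theorem isIntegrallyClosed_RR (Fb : IntermediateField k (LaurentSeries k)) (ξ : LaurentSeries k) :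
    IsIntegrallyClosed (RR Fb ξ) := by
  rw [isIntegrallyClosed_iff (FractionRing (RR Fb ξ))]
  intro x hx
  have hinj : Function.Injective (algebraMap (RR Fb ξ) (LaurentSeries k)) := Subtype.val_injective
  let j : FractionRing (RR Fb ξ) →+* LaurentSeries k := IsFractionRing.lift hinj
  have hj : ∀ r : RR Fb ξ, j (algebraMap (RR Fb ξ) (FractionRing (RR Fb ξ)) r) = (r : LaurentSeries k) :=
    fun r => IsFractionRing.lift_algebraMap hinj r
  have hint : IsIntegral (RR Fb ξ) (j x) := by
    obtain ⟨p, hp, hpx⟩ := hx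
    refine ⟨p, hp, ?_⟩
    have h1 := congrArg j hpx
    rw [Polynomial.hom_eval₂, map_zero] at h1
    have h2 : j.comp (algebraMap (RR Fb ξ) (FractionRing (RR Fb ξ)))
        = algebraMap (RR Fb ξ) (LaurentSeries k) := RingHom.ext hj
    rwa [h2] at h1
  have hFb : j x ∈ Fb := by
    obtain ⟨a, b, -, rfl⟩ := IsFractionRing.div_surjective (A := RR Fb ξ) x
    rw [map_div₀, hj, hj]
    exact Fb.div_mem a.2.1 b.2.1
  refine ⟨⟨j x, hFb, isInt_of_isIntegral Fb ξ hint⟩, ?_⟩
  apply j.injective
  rw [hj]

theorem isDedekindDomain_RR {Fb : IntermediateField k (LaurentSeries k)} {ξ : LaurentSeries k} {g : ℕ}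
    (hC : IsCurve Fb ξ g) : IsDedekindDomain (RR Fb ξ) := by
  have := isIntegrallyClosed_RR Fb ξ
  exact isDedekindDomain_of_finColen (k := k) (finColen_RR hC)

/-- root closedness, in the form used by [COND]: `φ ∈ Fb`, `φ ^ n ∈ R` ⇒ `φ ∈ R`. -/
theorem mem_RR_of_pow_mem {Fb : IntermediateField k (LaurentSeries k)} {ξ φ : LaurentSeries k}
    (hφ : φ ∈ Fb) {n : ℕ} (hn : 0 < n) (h : φ ^ n ∈ RR Fb ξ) : φ ∈ RR Fb ξ :=
  ⟨hφ, IsInt.of_pow hn h.2⟩

end Fermat.Agent.CAR.RP
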