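import Fermat.Agent.CAR.RP.ColenA1

/-!
# CAR / RP-A2 : the colength is multiplicative in a Dedekind domain (Mathlib only)
-/

set_option autoImplicit false

noncomputable section

namespace Fermat.Agent.CAR.RP

variable (k : Type*) [Field k] {R : Type*} [CommRing R] [Algebra k R]

/-! ## RP-A2 : multiplicativity in a Dedekind domain
(copy of Mathlib's `cardQuot_mul` in `RingTheory/Ideal/Norm/AbsNorm.lean` with `finrank k` instead of `Nat.card`:
coprime case by `Ideal.quotientMulEquivQuotientProd`, prime powers by `Ideal.quotEquivPowQuotPowSucc`,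
then `UniqueFactorizationMonoid.multiplicative_of_coprime`) -/

/-- `I = (a) + I J`; then `a r ∈ I J ↔ r ∈ J`. -/
theorem colenA2_mem_iff [IsDedekindDomain R] {I J : Ideal R} (hI : I ≠ ⊥) {a : R}
    (ha : I * J ⊔ Ideal.span {a} = I) (r : R) : a * r ∈ I * J ↔ r ∈ J := by
  have haI : a ∈ I := by
    rw [← ha]
    exact Ideal.mem_sup_right (Ideal.mem_span_singleton_self a)
  constructor
  · intro h
    obtain ⟨K, hK⟩ : I ∣ Ideal.span {a} := by
      rw [Ideal.dvd_iff_le, Ideal.span_singleton_le_iff_mem]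
      exact haI
    have hJK : J ⊔ K = ⊤ := by
      have h1 : I * (J ⊔ K) = I * ⊤ := by
        rw [Ideal.mul_sup, ← hK, ha, Ideal.mul_top]
      exact mul_left_cancel₀ (by simpa using hI) h1
    have h2 : I * (K * Ideal.span {r}) ≤ I * J := by
      rw [← mul_assoc, ← hK, Ideal.span_singleton_mul_span_singleton,
        Ideal.span_singleton_le_iff_mem]
      exact h
    have h3 : K * Ideal.span {r} ≤ J := by
      rw [← Ideal.dvd_iff_le] at h2 ⊢
      exact (mul_dvd_mul_iff_left (by simpa using hI)).mp h2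
    have h4 : Ideal.span {r} ≤ J := by
      calc Ideal.span {r} = (J ⊔ K) * Ideal.span {r} := by rw [hJK, Ideal.top_mul]
        _ = J * Ideal.span {r} ⊔ K * Ideal.span {r} := Ideal.sup_mul _ _ _
        _ ≤ J := sup_le Ideal.mul_le_left h3
    exact h4 (Ideal.mem_span_singleton_self r)
  · intro h
    exact Ideal.mul_mem_mul haI h

theorem colen_mul [IsDedekindDomain R] (h : FinColen k R) {I J : Ideal R} (hI : I ≠ ⊥) (hJ : J ≠ ⊥) :
    colen k (I * J) = colen k I + colen k J := by
  have hIJ : I * J ≠ ⊥ := by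
    have := mul_ne_zero (a := I) (b := J) (by simpa using hI) (by simpa using hJ)
    simpa using this
  have hfin : Module.Finite k (R ⧸ I * J) := h _ hIJ
  obtain ⟨a, ha⟩ := IsDedekindDomain.exists_sup_span_eq (I := I * J) (J := I) Ideal.mul_le_left
    (by simpa using hIJ)
  -- the projection
  let π : (R ⧸ I * J) →ₗ[k] (R ⧸ I) :=
    (Submodule.mapQ (I * J) I (LinearMap.id : R →ₗ[R] R) Ideal.mul_le_left).restrictScalars k
  -- multiplication by `a`
  let ψ : (R ⧸ J) →ₗ[k] (R ⧸ I * J) :=
    (Submodule.mapQ J (I * J) (LinearMap.mulLeft R a) (fun r hr =>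
      (colenA2_mem_iff hI ha r).mpr hr)).restrictScalars k
  have hπ : ∀ r : R, π (Ideal.Quotient.mk _ r) = Ideal.Quotient.mk _ r := fun r => rfl
  have hψ : ∀ r : R, ψ (Ideal.Quotient.mk _ r) = Ideal.Quotient.mk _ (a * r) := fun r => rfl
  have hπs : Function.Surjective π := by
    intro x
    obtain ⟨r, rfl⟩ := Ideal.Quotient.mk_surjective x
    exact ⟨Ideal.Quotient.mk _ r, hπ r⟩
  have hψi : Function.Injective ψ := by
    rw [← LinearMap.ker_eq_bot, LinearMap.ker_eq_bot']
    intro x hx
    obtain ⟨r, rfl⟩ := Ideal.Quotient.mk_surjective x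
    rw [hψ, Ideal.Quotient.eq_zero_iff_mem, colenA2_mem_iff hI ha] at hx
    exact Ideal.Quotient.eq_zero_iff_mem.mpr hx
  have hker : LinearMap.ker π = LinearMap.range ψ := by
    ext x
    obtain ⟨r, rfl⟩ := Ideal.Quotient.mk_surjective x
    rw [LinearMap.mem_ker, hπ, Ideal.Quotient.eq_zero_iff_mem, LinearMap.mem_range]
    constructor
    · intro hr
      rw [← ha] at hr
      obtain ⟨u, hu, w, hw, rfl⟩ := Submodule.mem_sup.mp hr
      obtain ⟨c, rfl⟩ := Ideal.mem_span_singleton'.mp hw
      refine ⟨Ideal.Quotient.mk _ c, ?_⟩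
      rw [hψ, Ideal.Quotient.eq]
      have : a * c - (u + c * a) = -u := by ring
      rw [this]
      exact (I * J).neg_mem hu
    · rintro ⟨y, hy⟩
      obtain ⟨c, rfl⟩ := Ideal.Quotient.mk_surjective y
      rw [hψ, Ideal.Quotient.eq] at hy
      have haI : a ∈ I := by
        rw [← ha]
        exact Ideal.mem_sup_right (Ideal.mem_span_singleton_self a)
      have h1 : a * c - r ∈ I := Ideal.mul_le_left hy
      have h2 : r = a * c - (a * c - r) := by ring
      rw [h2]
      exact I.sub_mem (I.mul_mem_right _ haI) h1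
  have h1 := LinearMap.finrank_range_add_finrank_ker π
  rw [LinearMap.range_eq_top.mpr hπs, finrank_top, hker, LinearMap.finrank_range_of_inj hψi] at h1
  exact h1.symm

theorem colen_pow [IsDedekindDomain R] (h : FinColen k R) {I : Ideal R} (hI : I ≠ ⊥) (N : ℕ) :
    colen k (I ^ N) = N * colen k I := by
  induction N with
  | zero =>
    rw [pow_zero, Ideal.one_eq_top, zero_mul]
    have : Subsingleton (R ⧸ (⊤ : Ideal R)) := Ideal.Quotient.subsingleton_iff.mpr rfl
    exact Module.finrank_zero_of_subsingleton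
  | succ N ih =>
    have hN : I ^ N ≠ ⊥ := by
      have := pow_ne_zero N (a := I) (by simpa using hI)
      simpa using this
    rw [pow_succ, colen_mul k h hN hI, ih]
    ring

end Fermat.Agent.CAR.RP
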