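import Fermat.Agent.CAR.RP.Closed
import Fermat.Agent.GAL.KLB.Count
import Fermat.Agent.GAL.CTV.SpanBar
import Fermat.Agent.GAL.CTV.UniquePole
import Fermat.Agent.GAL.CTV.IntVal

/-!
# CAR / RP-D2 : interpolation between the multiples of `m`

Setting = hypotheses of `KLB.exists_redW_LL_eq` (abstract good reduction at level `M'`).
`Fb = CTV.Fbar hρ = range ρ`, `ξ = ρ x` (order `-m`), `ξ' = ρ x'` (order `-m+1`).
-/

set_option autoImplicit false

open Polynomial

noncomputable section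

namespace Fermat.Agent.CAR.RP

open Fermat.Agent.GAL.KL Fermat.Agent.GAL.KLC Fermat.Agent.GAL.KLB Fermat.Agent.GAL.CTV

variable {K F k Γ₀ : Type*} [Field K] [Field F] [Algebra K F] [Field k]
  [LinearOrderedCommGroupWithZero Γ₀] {v : Valuation F Γ₀} {ρ : v.integer →+* LaurentSeries k}

/-! ## RP-D2 : interpolation between the multiples of `m` -/

/-- the `n`-th coefficient as a linear form. -/
def DimD2_coeffL (k : Type*) [Field k] (n : ℤ) : LaurentSeries k →ₗ[k] k where
  toFun φ := φ.coeff n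
  map_add' := fun _ _ => HahnSeries.coeff_add
  map_smul' := fun c φ => by rw [HahnSeries.coeff_smul]; rfl

theorem DimD2_RN_mono (Fb : IntermediateField k (LaurentSeries k)) (ξ : LaurentSeries k) {N N' : ℕ}
    (h : N ≤ N') : RN Fb ξ N ≤ RN Fb ξ N' := fun _ hφ =>
  ⟨hφ.1, fun n hn => hφ.2 n (by omega)⟩

/-- the coefficient of `Q^{-(N+1)}` is a linear form on `R_(N+1)` with kernel `R_N`. -/
theorem finrank_RN_succ_le (Fb : IntermediateField k (LaurentSeries k)) (ξ : LaurentSeries k) (N : ℕ)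
    (h : Module.Finite k (RN Fb ξ (N + 1))) :
    Module.finrank k (RN Fb ξ (N + 1)) ≤ Module.finrank k (RN Fb ξ N) + 1 := by
  set V := RN Fb ξ (N + 1) with hV
  let l : V →ₗ[k] k := (DimD2_coeffL k (-((N : ℤ) + 1))).comp V.subtype
  have hle : RN Fb ξ N ≤ V := DimD2_RN_mono Fb ξ (Nat.le_succ N)
  have hker : LinearMap.ker l = (RN Fb ξ N).comap V.subtype := by
    ext ⟨φ, hφ⟩
    rw [LinearMap.mem_ker, Submodule.mem_comap]
    change φ.coeff (-((N : ℤ) + 1)) = 0 ↔ φ ∈ RN Fb ξ N
    constructor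
    · intro h0
      refine ⟨hφ.1, fun n hn => ?_⟩
      rcases eq_or_ne n (-((N : ℤ) + 1)) with rfl | hne
      · exact h0
      · exact hφ.2 n (by push_cast; omega)
    · intro h0
      exact h0.2 _ (by omega)
  have h1 := LinearMap.finrank_range_add_finrank_ker l
  have h2 : Module.finrank k (LinearMap.range l) ≤ 1 := by
    have := Submodule.finrank_le (LinearMap.range l)
    rwa [Module.finrank_self] at this
  have h3 : Module.finrank k (LinearMap.ker l) = Module.finrank k (RN Fb ξ N) := by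
    rw [hker]
    exact (Submodule.comapSubtypeEquivOfLe hle).finrank_eq
  omega

theorem DimD2_finite_of_le (Fb : IntermediateField k (LaurentSeries k)) (ξ : LaurentSeries k)
    {N N' : ℕ} (h : N ≤ N') (hfin : Module.Finite k (RN Fb ξ N')) : Module.Finite k (RN Fb ξ N) :=
  Submodule.finiteDimensional_of_le (DimD2_RN_mono Fb ξ h)

theorem DimD2_finrank_add_le (Fb : IntermediateField k (LaurentSeries k)) (ξ : LaurentSeries k)
    (N j : ℕ) (hfin : Module.Finite k (RN Fb ξ (N + j))) :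
    Module.finrank k (RN Fb ξ (N + j)) ≤ Module.finrank k (RN Fb ξ N) + j := by
  induction j with
  | zero => exact le_rfl
  | succ j ih =>
    have h1 := finrank_RN_succ_le Fb ξ (N + j) hfin
    have h2 := ih (DimD2_finite_of_le Fb ξ (Nat.le_succ _) hfin)
    have e : N + (j + 1) = N + j + 1 := rfl
    rw [e]
    omega

/-- if `dim R_(a m) = a m + 1 - g` for all `a ≥ a₀` then `dim R_N = N + 1 - g` for all `N ≥ a₀ m`
(`m` steps, each `≤ 1`, total `m`). -/
theorem isCurve_of_mul (Fb : IntermediateField k (LaurentSeries k)) (ξ : LaurentSeries k) {m g a₀ : ℕ}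
    (hm : 0 < m) (h : ∀ a, a₀ ≤ a → Module.Finite k (RN Fb ξ (a * m)) ∧
      Module.finrank k (RN Fb ξ (a * m)) + g = a * m + 1) : IsCurve Fb ξ g := by
  refine ⟨a₀ * m, fun N hN => ?_⟩
  have ha : a₀ ≤ N / m := (Nat.le_div_iff_mul_le hm).2 hN
  obtain ⟨hf1, hd1⟩ := h (N / m) ha
  obtain ⟨hf2, hd2⟩ := h (N / m + 1) (by omega)
  have hlo : N / m * m ≤ N := Nat.div_mul_le_self N m
  have hhi : N ≤ (N / m + 1) * m := by
    have := Nat.lt_div_mul_add hm (a := N)
    rw [add_mul, one_mul]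
    omega
  have hfN : Module.Finite k (RN Fb ξ N) := DimD2_finite_of_le Fb ξ hhi hf2
  refine ⟨hfN, ?_⟩
  obtain ⟨j, hj⟩ := Nat.exists_eq_add_of_le hlo
  obtain ⟨j', hj'⟩ := Nat.exists_eq_add_of_le hhi
  have h1 := DimD2_finrank_add_le Fb ξ (N / m * m) j (hj ▸ hfN)
  have h2 := DimD2_finrank_add_le Fb ξ N j' (hj' ▸ hf2)
  rw [← hj] at h1
  rw [← hj'] at h2
  omega

end Fermat.Agent.CAR.RP
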