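import Fermat.Agent.CAR.RP.DimD1
import Fermat.Agent.CAR.RP.DimD2
import Fermat.Agent.TOR.T1.Lift

/-!
# CAR / RP-D3 : the reduction of level `M'` is a curve, both charts are Dedekind, lifting

Setting = hypotheses of `KLB.exists_redW_LL_eq` (abstract good reduction at level `M'`).
`Fb = CTV.Fbar hρ = range ρ`, `ξ = ρ x` (order `-m`), `ξ' = ρ x'` (order `-m+1`).
-/

set_option autoImplicit false

open Polynomial

noncomputable section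

namespace Fermat.Agent.CAR.RP

open Fermat.Agent.GAL.KL Fermat.Agent.GAL.KLC Fermat.Agent.GAL.KLB Fermat.Agent.GAL.CTV

variable {K F k Γ₀ : Type*} [Field K] [Field F] [Algebra K F] [Field k]
  [LinearOrderedCommGroupWithZero Γ₀] {v : Valuation F Γ₀} {ρ : v.integer →+* LaurentSeries k}

/-! ## the filtration of the chart at infinity -/

/-- the coercion of a scalar multiple in a chart ring. -/
theorem DimD3_coe_smul (Fb : IntermediateField k (LaurentSeries k)) (ξ : LaurentSeries k) (c : k)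
    (φ : RR Fb ξ) : ((c • φ : RR Fb ξ) : LaurentSeries k) =
      algebraMap k (LaurentSeries k) c * (φ : LaurentSeries k) := by
  rw [Algebra.smul_def]
  rfl

/-- `W a = ξ^{-a} B̄_a` inside the chart at infinity. -/
def DimD3_W (hρ : IsRed K v ρ) (ξ : LaurentSeries k) (a : ℕ) :
    Submodule k (RR (Fbar hρ) ξ⁻¹) where
  carrier := {φ | ξ ^ a * (φ : LaurentSeries k) ∈ Bbar hρ ξ a}
  add_mem' := by
    intro φ ψ h h'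
    change ξ ^ a * ((φ + ψ : RR (Fbar hρ) ξ⁻¹) : LaurentSeries k) ∈ Bbar hρ ξ a
    rw [Subalgebra.coe_add, mul_add]
    exact (Bbar hρ ξ a).add_mem h h'
  zero_mem' := by
    change ξ ^ a * ((0 : RR (Fbar hρ) ξ⁻¹) : LaurentSeries k) ∈ Bbar hρ ξ a
    rw [Subalgebra.coe_zero, mul_zero]
    exact (Bbar hρ ξ a).zero_mem
  smul_mem' := by
    intro c φ h
    change ξ ^ a * ((c • φ : RR (Fbar hρ) ξ⁻¹) : LaurentSeries k) ∈ Bbar hρ ξ a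
    rw [DimD3_coe_smul, mul_left_comm, ← smul_eq_algebraMap_mul]
    exact (Bbar hρ ξ a).smul_mem c h

theorem DimD3_mem_W (hρ : IsRed K v ρ) {ξ : LaurentSeries k} {a : ℕ} {φ : RR (Fbar hρ) ξ⁻¹} :
    φ ∈ DimD3_W hρ ξ a ↔ ξ ^ a * (φ : LaurentSeries k) ∈ Bbar hρ ξ a := Iff.rfl

/-- membership in `W a` only tests integrality of `ξ ^ a φ` over `k[ξ]`. -/
theorem DimD3_mem_W_iff (hρ : IsRed K v ρ) {ξ : LaurentSeries k} (hξ : ξ ∈ Fbar hρ) (hξ0 : ξ ≠ 0)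
    {a : ℕ} {φ : RR (Fbar hρ) ξ⁻¹} :
    φ ∈ DimD3_W hρ ξ a ↔ IsInt k ξ (ξ ^ a * (φ : LaurentSeries k)) := by
  rw [DimD3_mem_W, mem_Bbar]
  constructor
  · exact fun h => h.1.1
  · intro h
    refine ⟨⟨h, ?_⟩, ?_⟩
    · rw [← mul_assoc, ← mul_pow, inv_mul_cancel₀ hξ0, one_pow, one_mul]
      exact φ.2.2
    · exact (mem_Fbar hρ).1 ((Fbar hρ).mul_mem ((Fbar hρ).pow_mem hξ a) φ.2.1)

theorem DimD3_isInt_self (ξ : LaurentSeries k) : IsInt k ξ ξ := by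
  have h := IsInt.aeval (L := k) (t := ξ) (X : k[X])
  rwa [aeval_X] at h

theorem DimD3_W_mono (hρ : IsRed K v ρ) {ξ : LaurentSeries k} (hξ : ξ ∈ Fbar hρ) (hξ0 : ξ ≠ 0) :
    Monotone (DimD3_W hρ ξ) := by
  intro a b hab φ h
  rw [DimD3_mem_W_iff hρ hξ hξ0] at h ⊢
  obtain ⟨c, rfl⟩ := Nat.exists_eq_add_of_le hab
  rw [add_comm, pow_add, mul_assoc]
  exact ((DimD3_isInt_self ξ).pow c).mul h

theorem DimD3_W_exhaust (hρ : IsRed K v ρ) {ξ : LaurentSeries k} (hξ : ξ ∈ Fbar hρ) (hξ0 : ξ ≠ 0)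
    (φ : RR (Fbar hρ) ξ⁻¹) : ∃ a, φ ∈ DimD3_W hρ ξ a := by
  obtain ⟨m₀, hm₀⟩ := IsInt.shift (t := ξ) hξ0 φ.2.2
  exact ⟨m₀, (DimD3_mem_W_iff hρ hξ hξ0).2 (hm₀ m₀ le_rfl)⟩

theorem DimD3_W_mul (hρ : IsRed K v ρ) {ξ : LaurentSeries k} (hξ : ξ ∈ Fbar hρ) (hξ0 : ξ ≠ 0)
    (a b : ℕ) (r : RR (Fbar hρ) ξ⁻¹) (hr : r ∈ DimD3_W hρ ξ a) (s : RR (Fbar hρ) ξ⁻¹)
    (hs : s ∈ DimD3_W hρ ξ b) : r * s ∈ DimD3_W hρ ξ (a + b) := by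
  rw [DimD3_mem_W_iff hρ hξ hξ0] at hr hs ⊢
  have : ξ ^ (a + b) * ((r * s : RR (Fbar hρ) ξ⁻¹) : LaurentSeries k) =
      (ξ ^ a * (r : LaurentSeries k)) * (ξ ^ b * (s : LaurentSeries k)) := by
    rw [Subalgebra.coe_mul, pow_add]
    ring
  rw [this]
  exact hr.mul hs

/-- multiplication by `ξ ^ a` : `W a ≃ B̄_a`. -/
def DimD3_equiv (hρ : IsRed K v ρ) {ξ : LaurentSeries k} (hξ : ξ ∈ Fbar hρ) (hξ0 : ξ ≠ 0) (a : ℕ) :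
    DimD3_W hρ ξ a ≃ₗ[k] Bbar hρ ξ a where
  toFun φ := ⟨ξ ^ a * ((φ : RR (Fbar hρ) ξ⁻¹) : LaurentSeries k), φ.2⟩
  map_add' φ ψ := by
    apply Subtype.ext
    change ξ ^ a * (((φ : RR (Fbar hρ) ξ⁻¹) + (ψ : RR (Fbar hρ) ξ⁻¹) : RR (Fbar hρ) ξ⁻¹) :
      LaurentSeries k) = ξ ^ a * ((φ : RR (Fbar hρ) ξ⁻¹) : LaurentSeries k) +
        ξ ^ a * ((ψ : RR (Fbar hρ) ξ⁻¹) : LaurentSeries k)
    rw [Subalgebra.coe_add, mul_add]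
  map_smul' c φ := by
    apply Subtype.ext
    change ξ ^ a * ((c • (φ : RR (Fbar hρ) ξ⁻¹) : RR (Fbar hρ) ξ⁻¹) : LaurentSeries k) =
      c • (ξ ^ a * ((φ : RR (Fbar hρ) ξ⁻¹) : LaurentSeries k))
    rw [DimD3_coe_smul, mul_left_comm, ← smul_eq_algebraMap_mul]
  invFun ψ := ⟨⟨ξ⁻¹ ^ a * (ψ : LaurentSeries k),
      (Fbar hρ).mul_mem ((Fbar hρ).pow_mem ((Fbar hρ).inv_mem hξ) a) ((mem_Fbar hρ).2 ψ.2.2),
      ψ.2.1.2⟩, by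
    rw [DimD3_mem_W]
    change ξ ^ a * (ξ⁻¹ ^ a * (ψ : LaurentSeries k)) ∈ Bbar hρ ξ a
    rw [← mul_assoc, ← mul_pow, mul_inv_cancel₀ hξ0, one_pow, one_mul]
    exact ψ.2⟩
  left_inv φ := by
    apply Subtype.ext
    apply Subtype.ext
    change ξ⁻¹ ^ a * (ξ ^ a * ((φ : RR (Fbar hρ) ξ⁻¹) : LaurentSeries k)) = _
    rw [← mul_assoc, ← mul_pow, inv_mul_cancel₀ hξ0, one_pow, one_mul]
  right_inv ψ := by
    apply Subtype.ext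
    change ξ ^ a * (ξ⁻¹ ^ a * (ψ : LaurentSeries k)) = _
    rw [← mul_assoc, ← mul_pow, mul_inv_cancel₀ hξ0, one_pow, one_mul]

section Main

variable [IsAlgClosed K] [CharZero K] (hρ : IsRed K v ρ) {x x' : F}
    (hx : x ∈ v.integer) (hx' : x' ∈ v.integer) {m : ℕ} (hm : 0 < m)
    (hxo : (ρ ⟨x, hx⟩).order = -(m : ℤ)) (hxo' : (ρ ⟨x', hx'⟩).order = -(m : ℤ) + 1)
    (hSp : Spans K x (fun i : Fin m => x' ^ (i : ℕ))) {g : ℕ}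
    (hRI : ∀ a : ℕ, ((a * m + 1 : ℕ) : ℤ) - g ≤ Module.finrank K (LL K x a))
    (f : Fin g → LaurentSeries k) (hf : LinearIndependent k f) (hf0 : ∀ j, 0 < (f j).order)
    (hb2 : ∀ z : v.integer, IsInt k (ρ ⟨x, hx⟩) (ρ z) → ∀ j, (ρ z * f j).coeff 0 = 0)

include hx' hm hxo hxo' hSp hRI hf hf0 hb2 in
/-- **RP-D3.** -/
theorem isCurve_of_count : IsCurve (Fbar hρ) (ρ ⟨x, hx⟩) g := by
  obtain ⟨a₀, ha₀⟩ := exists_redW_LL_eq hρ hx hx' hm hxo hxo' hSp hRI f hf hf0 hb2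
  refine isCurve_of_mul (Fbar hρ) (ρ ⟨x, hx⟩) (a₀ := a₀) hm fun a ha => ?_
  rw [RN_mul_eq_Bbar hρ hx hx' hm hxo hxo' hSp a]
  exact ⟨(ha₀ a ha).2.1, (ha₀ a ha).2.2.1⟩

include hx' hm hxo hxo' hSp hRI hf hf0 hb2 in
/-- **RP-D4** the chart at infinity: `R^∞ = ⋃ ξ^{-a} B̄_a` (`IsInt.shift`), `dim ξ^{-a} B̄_a = a m + 1 - g`; apply
`finite_quot_span_of_filtration`, `finColen_of_span`. -/
theorem finColen_RR_inv : FinColen k (RR (Fbar hρ) (ρ ⟨x, hx⟩)⁻¹) := by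
  obtain ⟨a₀, ha₀⟩ := exists_redW_LL_eq hρ hx hx' hm hxo hxo' hSp hRI f hf hf0 hb2
  have hξ : ρ ⟨x, hx⟩ ∈ Fbar hρ := rho_mem_Fbar hρ _
  have hξ0 : ρ ⟨x, hx⟩ ≠ 0 := by
    intro h
    rw [h, HahnSeries.order_zero] at hxo
    omega
  refine finColen_of_span k fun H hH => ?_
  refine finite_quot_span_of_filtration k (DimD3_W hρ (ρ ⟨x, hx⟩)) (DimD3_W_mono hρ hξ hξ0)
    (DimD3_W_exhaust hρ hξ hξ0) (DimD3_W_mul hρ hξ hξ0) m g a₀ (fun a ha => ?_) H hH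
  have _ : Module.Finite k (Bbar hρ (ρ ⟨x, hx⟩) a) := (ha₀ a ha).2.1
  refine ⟨Module.Finite.equiv (DimD3_equiv hρ hξ hξ0 a).symm, ?_⟩
  rw [(DimD3_equiv hρ hξ hξ0 a).finrank_eq]
  exact (ha₀ a ha).2.2.1

include hx' hm hxo hxo' hSp hRI hf hf0 hb2 in
theorem isDedekindDomain_RR_inv : IsDedekindDomain (RR (Fbar hρ) (ρ ⟨x, hx⟩)⁻¹) := by
  have _ : IsIntegrallyClosed (RR (Fbar hρ) (ρ ⟨x, hx⟩)⁻¹) := isIntegrallyClosed_RR _ _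
  exact isDedekindDomain_of_finColen k
    (finColen_RR_inv hρ hx hx' hm hxo hxo' hSp hRI f hf hf0 hb2)

include hx' hm hxo hxo' hSp hRI hf hf0 hb2 in
/-- **RP-D5** lifting (`= TOR.T1.lift_of_count`): the chart rings are the reductions of the integral chart rings. -/
theorem exists_lift_RR {φ : LaurentSeries k} (hφ : φ ∈ RR (Fbar hρ) (ρ ⟨x, hx⟩)) :
    ∃ z : v.integer, IsInt K x (z : F) ∧ ρ z = φ := by
  obtain ⟨z, hz⟩ := (mem_Fbar hρ).1 hφ.1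
  obtain ⟨c', hc', hc'v, hc'ρ⟩ :=
    (Fermat.Agent.TOR.T1.lift_of_count hρ hx hx' hm hxo hxo' hSp hRI f hf hf0 hb2).1 (z : F) φ
      ⟨z.2, hz⟩ hφ.2
  exact ⟨⟨c', hc'v⟩, hc', hc'ρ⟩

include hx' hm hxo hxo' hSp hRI hf hf0 hb2 in
theorem exists_lift_RR_inv {φ : LaurentSeries k} (hφ : φ ∈ RR (Fbar hρ) (ρ ⟨x, hx⟩)⁻¹) :
    ∃ z : v.integer, IsInt K x⁻¹ (z : F) ∧ ρ z = φ := by
  obtain ⟨z, hz⟩ := (mem_Fbar hρ).1 hφ.1
  obtain ⟨c', hc', hc'v, hc'ρ⟩ :=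
    (Fermat.Agent.TOR.T1.lift_of_count hρ hx hx' hm hxo hxo' hSp hRI f hf hf0 hb2).2 (z : F) φ
      ⟨z.2, hz⟩ hφ.2
  exact ⟨⟨c', hc'v⟩, hc', hc'ρ⟩

end Main

end Fermat.Agent.CAR.RP
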