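import Fermat.Agent.CAR.RP.Closed
import Fermat.Agent.GAL.KLB.Count
import Fermat.Agent.GAL.CTV.SpanBar
import Fermat.Agent.GAL.CTV.UniquePole
import Fermat.Agent.GAL.CTV.IntVal
import Fermat.Agent.GAL.CTV.Finite

/-!
# CAR / RP-D6 : fractions, the point at infinity

Setting = hypotheses of `KLB.exists_redW_LL_eq` (abstract good reduction at level `M'`).
`Fb = CTV.Fbar hρ = range ρ`, `ξ = ρ x` (order `-m`), `ξ' = ρ x'` (order `-m+1`).
-/

set_option autoImplicit false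

open Polynomial

noncomputable section

namespace Fermat.Agent.CAR.RP

open Fermat.Agent.GAL.KL Fermat.Agent.GAL.KLC Fermat.Agent.GAL.KLB Fermat.Agent.GAL.CTV

variable {K F k Γ₀ : Type*} [Field K] [Field F] [Algebra K F] [Field k]
  [LinearOrderedCommGroupWithZero Γ₀] {v : Valuation F Γ₀} {ρ : v.integer →+* LaurentSeries k}

/-! ## RP-D6 : fractions, the point at infinity -/

theorem dimD6_aeval_mem_RR {Fb : IntermediateField k (LaurentSeries k)} {ξ : LaurentSeries k}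
    (hξ : ξ ∈ Fb) (q : k[X]) : aeval ξ q ∈ RR Fb ξ := by
  refine ⟨?_, IsInt.aeval q⟩
  have h : aeval ξ q = ((aeval (⟨ξ, hξ⟩ : Fb) q : Fb) : LaurentSeries k) :=
    Polynomial.aeval_algHom_apply Fb.val (⟨ξ, hξ⟩ : Fb) q
  rw [h]
  exact Subtype.mem _

/-- every element of the residue field is a quotient of elements of the chart ring
(from `CTV.hspan_Fbar`: multiply by `ξ^m d(ξ)`). -/
theorem exists_mul_mem_RR (hρ : IsRed K v ρ) {x x' : F} (hx : x ∈ v.integer) (hx' : x' ∈ v.integer)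
    {m : ℕ} (hm : 0 < m) (hxo : (ρ ⟨x, hx⟩).order = -(m : ℤ))
    (hxo' : (ρ ⟨x', hx'⟩).order = -(m : ℤ) + 1)
    (hSp : Spans K x (fun i : Fin m => x' ^ (i : ℕ)))
    (hx'i : IsInt k (ρ ⟨x, hx⟩) (ρ ⟨x', hx'⟩)) {φ : LaurentSeries k} (hφ : φ ∈ Fbar hρ) :
    ∃ b ∈ RR (Fbar hρ) (ρ ⟨x, hx⟩), b ≠ 0 ∧ b * φ ∈ RR (Fbar hρ) (ρ ⟨x, hx⟩) := by
  obtain ⟨d, p, hd, h⟩ := hspan_Fbar hρ hx hx' hm hxo hxo' hSp ⟨φ, hφ⟩
  set ξ : LaurentSeries k := ρ ⟨x, hx⟩ with hξdef
  set ξ' : LaurentSeries k := ρ ⟨x', hx'⟩ with hξ'def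
  have hξm : ξ ∈ Fbar hρ := rho_mem_Fbar hρ _
  have hξ'm : ξ' ∈ Fbar hρ := rho_mem_Fbar hρ _
  have hξneg : ξ.order < 0 := by rw [hxo]; omega
  have hξ0 : ξ ≠ 0 := by
    rintro h0
    rw [h0, HahnSeries.order_zero] at hξneg
    omega
  -- the relation in `k((q))`
  have h' : aeval ξ d * φ = ∑ i : Fin m, aeval ξ (p i) * (ξ' * ξ⁻¹) ^ (i : ℕ) := by
    have h1 := congrArg (Fbar hρ).val h
    rw [map_mul, map_sum, ← Polynomial.aeval_algHom_apply] at h1
    simp only [map_mul, map_pow, map_inv₀, ← Polynomial.aeval_algHom_apply] at h1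
    exact h1
  have hξR : ξ ∈ RR (Fbar hρ) ξ := by
    have := dimD6_aeval_mem_RR hξm (X : k[X])
    rwa [aeval_X] at this
  have hξ'R : ξ' ∈ RR (Fbar hρ) ξ := ⟨hξ'm, hx'i⟩
  refine ⟨ξ ^ m * aeval ξ d, (RR (Fbar hρ) ξ).mul_mem ((RR (Fbar hρ) ξ).pow_mem hξR m)
    (dimD6_aeval_mem_RR hξm d), mul_ne_zero (pow_ne_zero _ hξ0) ?_, ?_⟩
  · exact fun h0 => hd ((transcendental_iff.mp (transcendental_of_order_neg ξ hξneg)) d h0)
  · rw [mul_assoc, h', Finset.mul_sum]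
    refine (RR (Fbar hρ) ξ).sum_mem fun i _ => ?_
    have e : ξ ^ m * (aeval ξ (p i) * (ξ' * ξ⁻¹) ^ (i : ℕ))
        = aeval ξ (p i) * (ξ' ^ (i : ℕ) * ξ ^ (m - (i : ℕ))) := by
      have hi : ξ ^ m = ξ ^ (m - (i : ℕ)) * ξ ^ (i : ℕ) := by
        rw [← pow_add, Nat.sub_add_cancel i.2.le]
      rw [hi, mul_pow]
      have h2 : ξ ^ (i : ℕ) * ξ⁻¹ ^ (i : ℕ) = 1 := by
        rw [← mul_pow, mul_inv_cancel₀ hξ0, one_pow]
      linear_combination (ξ ^ (m - (i : ℕ)) * aeval ξ (p i) * ξ' ^ (i : ℕ)) * h2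
    rw [e]
    exact (RR (Fbar hρ) ξ).mul_mem (dimD6_aeval_mem_RR hξm _)
      ((RR (Fbar hρ) ξ).mul_mem ((RR (Fbar hρ) ξ).pow_mem hξ'R _)
        ((RR (Fbar hρ) ξ).pow_mem hξR _))

/-- elements of the chart at infinity are power series. -/
theorem coeff_eq_zero_of_mem_RR_inv {Fb : IntermediateField k (LaurentSeries k)} {ξ φ : LaurentSeries k}
    (hξ : ξ.order < 0) (hφ : φ ∈ RR Fb ξ⁻¹) (n : ℤ) (hn : n < 0) : φ.coeff n = 0 := by
  have hξ0 : ξ ≠ 0 := by
    rintro rfl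
    rw [HahnSeries.order_zero] at hξ
    omega
  refine coeff_eq_zero_of_isInt (η := ξ⁻¹) (fun i hi => ?_) hφ.2 n hn
  apply HahnSeries.coeff_eq_zero_of_lt_order
  rw [a4_order_inv hξ0]
  omega

/-- a product of a power series and a power series without constant term has no constant term. -/
theorem dimD6_coeff_mul {c φ : LaurentSeries k} (hc : ∀ n : ℤ, n < 0 → c.coeff n = 0)
    (hφ : ∀ n : ℤ, n < 1 → φ.coeff n = 0) (n : ℤ) (hn : n < 1) : (c * φ).coeff n = 0 := by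
  rw [HahnSeries.coeff_mul]
  refine Finset.sum_eq_zero fun ij hij => ?_
  have hsum : ij.1 + ij.2 = n := (Finset.mem_antidiagonal.mp hij).2.2
  by_cases hj : ij.2 < 1
  · rw [hφ _ hj, mul_zero]
  · rw [hc _ (by omega), zero_mul]

/-- the point `Q = 0` of the chart at infinity. -/
def Pinf (Fb : IntermediateField k (LaurentSeries k)) (ξ : LaurentSeries k) (hξ : ξ.order < 0) :
    Ideal (RR Fb ξ⁻¹) where
  carrier := {φ | ∀ n : ℤ, n < 1 → (φ : LaurentSeries k).coeff n = 0}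
  add_mem' := fun h h' n hn => by
    rw [Subalgebra.coe_add, HahnSeries.coeff_add, h n hn, h' n hn, add_zero]
  zero_mem' := fun _ _ => rfl
  smul_mem' := fun c φ h n hn => by
    rw [smul_eq_mul, Subalgebra.coe_mul]
    exact dimD6_coeff_mul (coeff_eq_zero_of_mem_RR_inv hξ c.2) h n hn

theorem mem_Pinf {Fb : IntermediateField k (LaurentSeries k)} {ξ : LaurentSeries k}
    {hξ : ξ.order < 0} {φ : RR Fb ξ⁻¹} :
    φ ∈ Pinf Fb ξ hξ ↔ ∀ n : ℤ, n < 1 → (φ : LaurentSeries k).coeff n = 0 := Iff.rfl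

theorem Pinf_isMaximal {Fb : IntermediateField k (LaurentSeries k)} {ξ : LaurentSeries k}
    (hξ : ξ.order < 0) : (Pinf Fb ξ hξ).IsMaximal := by
  rw [Ideal.isMaximal_iff]
  constructor
  · intro h
    have := mem_Pinf.mp h 0 (by norm_num)
    rw [Subalgebra.coe_one, HahnSeries.coeff_one, if_pos rfl] at this
    exact one_ne_zero this
  · intro J φ hIJ hφI hφJ
    have hneg := coeff_eq_zero_of_mem_RR_inv hξ φ.2
    set c : k := (φ : LaurentSeries k).coeff 0 with hc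
    have hc0 : c ≠ 0 := by
      intro h0
      apply hφI
      rw [mem_Pinf]
      intro n hn
      rcases lt_or_eq_of_le (show n ≤ 0 by omega) with h1 | h1
      · exact hneg n h1
      · rw [h1]; exact h0
    have hsub : φ - algebraMap k (RR Fb ξ⁻¹) c ∈ Pinf Fb ξ hξ := by
      rw [mem_Pinf]
      intro n hn
      rw [Subalgebra.coe_sub, Subalgebra.coe_algebraMap, HahnSeries.coeff_sub,
        ModularCurve.algebraMap_laurentSeries_eq_single]
      rcases lt_or_eq_of_le (show n ≤ 0 by omega) with h1 | h1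
      · rw [hneg n h1, HahnSeries.coeff_single_of_ne h1.ne, sub_zero]
      · rw [h1, HahnSeries.coeff_single_same, sub_self]
    have hcJ : algebraMap k (RR Fb ξ⁻¹) c ∈ J := by
      have := J.sub_mem hφJ (hIJ hsub)
      rwa [sub_sub_cancel] at this
    have h1 : (1 : RR Fb ξ⁻¹) = algebraMap k (RR Fb ξ⁻¹) c⁻¹ * algebraMap k (RR Fb ξ⁻¹) c := by
      rw [← map_mul, inv_mul_cancel₀ hc0, map_one]
    rw [h1]
    exact J.mul_mem_left _ hcJ

end Fermat.Agent.CAR.RP
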