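import Fermat.Agent.CAR.RP.DimD1
import Fermat.Agent.CAR.RP.DimD2
import Fermat.Agent.CAR.RP.DimD3
import Fermat.Agent.CAR.RP.DimD6

/-! # CAR / RP-D (collects D1-D6) -/
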