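import Fermat.Agent.CAR.RP.ColenA2

/-!
# CAR / RP-A3 : powers of elements versus powers of ideals; the thickness argument (Mathlib only)
-/

set_option autoImplicit false

noncomputable section

namespace Fermat.Agent.CAR.RP

variable (k : Type*) [Field k] {R : Type*} [CommRing R] [Algebra k R]

/-! ## RP-A3 : powers of elements versus powers of ideals in a Dedekind domain (no `k`) -/

omit [Algebra k R] in
/-- `I P ≠ I`. -/
theorem exists_mem_not_mem_mul [IsDedekindDomain R] {I P : Ideal R} (hI : I ≠ ⊥) (hP : P.IsPrime)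
    (hP0 : P ≠ ⊥) : ∃ a ∈ I, a ∉ I * P := by
  by_contra hcon
  push Not at hcon
  have h1 : I ≤ I * P := hcon
  have h2 : I * P = I * 1 := by
    rw [mul_one]
    exact le_antisymm Ideal.mul_le_left h1
  have h3 : P = 1 := mul_left_cancel₀ hI h2
  exact hP.ne_top (h3.trans Ideal.one_eq_top)

omit [Algebra k R] in
/-- `(a) = I A` with `P ∤ A`. -/
theorem ColenA3_exists_span_eq [IsDedekindDomain R] {I P : Ideal R} {a : R} (ha : a ∈ I)
    (ha' : a ∉ I * P) : ∃ A : Ideal R, Ideal.span {a} = I * A ∧ ¬ P ∣ A := by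
  have h1 : I ∣ Ideal.span {a} := by
    rw [Ideal.dvd_iff_le, Ideal.span_singleton_le_iff_mem]
    exact ha
  obtain ⟨A, hA⟩ := h1
  refine ⟨A, hA, ?_⟩
  rintro ⟨A', rfl⟩
  apply ha'
  have h2 : Ideal.span {a} ≤ I * P := by
    rw [hA, ← mul_assoc]
    exact Ideal.mul_le_left
  exact h2 (Ideal.mem_span_singleton_self a)

omit [Algebra k R] in
/-- `ord_P a = ord_P I ⇒ ord_P a^N = N ord_P I < ord_P (I^N P)`. -/
theorem pow_not_mem_mul [IsDedekindDomain R] {I P : Ideal R} (hI : I ≠ ⊥) (hP : P.IsPrime)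
    (hP0 : P ≠ ⊥) {a : R} (ha : a ∈ I) (ha' : a ∉ I * P) (N : ℕ) : a ^ N ∉ I ^ N * P := by
  obtain ⟨A, hA, hPA⟩ := ColenA3_exists_span_eq ha ha'
  intro hmem
  have h1 : I ^ N * P ∣ I ^ N * A ^ N := by
    rw [← mul_pow, ← hA, Ideal.span_singleton_pow, Ideal.dvd_iff_le,
      Ideal.span_singleton_le_iff_mem]
    exact hmem
  have h2 : P ∣ A ^ N := (mul_dvd_mul_iff_left (pow_ne_zero N hI)).1 h1
  exact hPA ((Ideal.prime_of_isPrime hP0 hP).dvd_of_dvd_pow h2)

omit [Algebra k R] in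
/-- if all `N`-th powers of elements of `I` lie in `J` then `I ^ N ≤ J` (compare `ord_P` for every `P`, using
`exists_mem_not_mem_mul`, `pow_not_mem_mul`). -/
theorem pow_le_of_forall_pow_mem [IsDedekindDomain R] {I J : Ideal R} {N : ℕ}
    (h : ∀ a ∈ I, a ^ N ∈ J) : I ^ N ≤ J := by
  by_cases hI : I = ⊥
  · subst hI
    rcases Nat.eq_zero_or_pos N with rfl | hN
    · have h1 := h 0 (Ideal.zero_mem _)
      rw [pow_zero] at h1
      rw [(Ideal.eq_top_iff_one J).2 h1]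
      exact le_top
    · rw [← Ideal.zero_eq_bot, zero_pow hN.ne', Ideal.zero_eq_bot]
      exact bot_le
  have hJ : J ≠ ⊥ := by
    rintro rfl
    obtain ⟨a, haI, ha0⟩ := Submodule.exists_mem_ne_zero_of_ne_bot hI
    have h1 : a ^ N = 0 := h a haI
    exact ha0 (eq_zero_of_pow_eq_zero h1)
  -- `G = gcd (J, I ^ N)`
  set G : Ideal R := J ⊔ I ^ N with hG
  have hG0 : G ≠ ⊥ := fun h0 => hJ (le_bot_iff.1 (h0 ▸ le_sup_left))
  obtain ⟨Y, hY⟩ : G ∣ J := Ideal.dvd_iff_le.2 le_sup_left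
  obtain ⟨X, hX⟩ : G ∣ I ^ N := Ideal.dvd_iff_le.2 le_sup_right
  have hXY : Y ⊔ X = ⊤ := by
    have h1 : G * (Y ⊔ X) = G * 1 := by
      rw [Ideal.mul_sup, ← hY, ← hX, mul_one]
    rw [← Ideal.one_eq_top]
    exact mul_left_cancel₀ hG0 h1
  by_cases hYtop : Y = ⊤
  · rw [hY, hYtop, Ideal.mul_top]
    exact le_sup_right
  exfalso
  obtain ⟨P, hPmax, hYP⟩ := Ideal.exists_le_maximal Y hYtop
  have hY0 : Y ≠ ⊥ := by
    rintro rfl
    rw [Ideal.mul_bot] at hY
    exact hJ hY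
  have hP0 : P ≠ ⊥ := fun h0 => hY0 (le_bot_iff.1 (h0 ▸ hYP))
  have hP : P.IsPrime := hPmax.isPrime
  have hPX : ¬ P ∣ X := by
    intro hd
    have h1 : Y ⊔ X ≤ P := sup_le hYP (Ideal.dvd_iff_le.1 hd)
    rw [hXY, top_le_iff] at h1
    exact hP.ne_top h1
  obtain ⟨a, haI, haIP⟩ := exists_mem_not_mem_mul hI hP hP0
  obtain ⟨A, hA, hPA⟩ := ColenA3_exists_span_eq haI haIP
  have h1 : Ideal.span {a ^ N} ≤ G * P := by
    rw [Ideal.span_singleton_le_iff_mem]
    have h2 : J ≤ G * P := by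
      conv_lhs => rw [hY]
      exact Ideal.mul_mono_right hYP
    exact h2 (h a haI)
  have h2 : G * P ∣ G * (X * A ^ N) := by
    rw [← mul_assoc, ← hX, ← mul_pow, ← hA, Ideal.span_singleton_pow, Ideal.dvd_iff_le]
    exact h1
  have h3 : P ∣ X * A ^ N := (mul_dvd_mul_iff_left hG0).1 h2
  have hPp : Prime P := Ideal.prime_of_isPrime hP0 hP
  rcases hPp.dvd_or_dvd h3 with h4 | h4
  · exact hPX h4
  · exact hPA (hPp.dvd_of_dvd_pow h4)

/-- **the thickness argument** (CAR [TH1]): `H ≠ 0`, all `N`-th powers of elements of `I` are multiples of `H`,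
and `N · colen I ≤ colen (H)`.  Then `(H) = I ^ N`, and for `a ∈ I ∖ I P` the quotient `a ^ N / H` is a unit at `P`. -/
theorem span_eq_pow_of_colen_le [IsDedekindDomain R] (h : FinColen k R) {I : Ideal R} (hI : I ≠ ⊥)
    {H : R} (hH : H ≠ 0) {N : ℕ} (hpow : ∀ a ∈ I, H ∣ a ^ N)
    (hc : N * colen k I ≤ colen k (Ideal.span {H})) : Ideal.span {H} = I ^ N := by
  have h1 : I ^ N ≤ Ideal.span {H} :=
    pow_le_of_forall_pow_mem fun a ha => Ideal.mem_span_singleton.2 (hpow a ha)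
  have h2 : Module.Finite k (R ⧸ I ^ N) := h _ (pow_ne_zero N hI)
  exact (eq_of_le_of_colen_le k h2 h1 (by rw [colen_pow k h hI]; exact hc)).symm

theorem not_mem_of_pow_eq_mul [IsDedekindDomain R] (h : FinColen k R) {I : Ideal R} (hI : I ≠ ⊥)
    {H : R} (hH : H ≠ 0) {N : ℕ} (hpow : ∀ a ∈ I, H ∣ a ^ N)
    (hc : N * colen k I ≤ colen k (Ideal.span {H})) {P : Ideal R} (hP : P.IsPrime) (hP0 : P ≠ ⊥)
    {a y : R} (ha : a ∈ I) (ha' : a ∉ I * P) (hy : a ^ N = H * y) : y ∉ P := by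
  intro hyP
  apply pow_not_mem_mul hI hP hP0 ha ha' N
  rw [← span_eq_pow_of_colen_le k h hI hH hpow hc, hy]
  exact Ideal.mul_mem_mul (Ideal.mem_span_singleton_self H) hyP

end Fermat.Agent.CAR.RP
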