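import Fermat.Agent.CAR.RP.ColenA1

/-!
# CAR / RP-A4 : finite colength from a filtration (Mathlib only)
-/

set_option autoImplicit false

noncomputable section

namespace Fermat.Agent.CAR.RP

variable (k : Type*) [Field k] {R : Type*} [CommRing R] [Algebra k R]

/-! ## RP-A4 : finite colength from a filtration -/

/-- (helper, same statement as `finrank_le_of_iSup_le` below.) -/
theorem ColenA4_finrank_le {V : Type*} [AddCommGroup V] [Module k V] (W : ℕ → Submodule k V)
    (hmono : Monotone W) (hex : ∀ x : V, ∃ a, x ∈ W a) (d : ℕ)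
    (hd : ∀ a, Module.Finite k (W a) ∧ Module.finrank k (W a) ≤ d) :
    Module.Finite k V ∧ Module.finrank k V ≤ d := by
  have hne : (Set.range fun a => Module.finrank k (W a)).Nonempty := Set.range_nonempty _
  have hbdd : BddAbove (Set.range fun a => Module.finrank k (W a)) :=
    ⟨d, by rintro _ ⟨a, rfl⟩; exact (hd a).2⟩
  obtain ⟨a, ha⟩ := Nat.sSup_mem hne hbdd
  have ha' : Module.finrank k (W a) = sSup (Set.range fun a => Module.finrank k (W a)) := ha
  have hmax : ∀ b, Module.finrank k (W b) ≤ Module.finrank k (W a) := fun b => by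
    rw [ha']
    exact le_csSup hbdd ⟨b, rfl⟩
  have htop : W a = ⊤ := by
    rw [eq_top_iff]
    intro x _
    obtain ⟨b, hb⟩ := hex x
    have := (hd (max a b)).1
    have : W a = W (max a b) :=
      Submodule.eq_of_le_of_finrank_le (hmono (le_max_left a b)) (hmax _)
    rw [this]
    exact hmono (le_max_right a b) hb
  have hfin : Module.Finite k V := by
    have := (hd a).1
    rw [htop] at this
    exact Module.finite_def.2 (Module.Finite.iff_fg.1 this)
  refine ⟨hfin, ?_⟩
  have := (hd a).2
  rwa [htop, finrank_top] at this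

/-- `R = ⋃ W a`, `W a W b ⊆ W (a+b)`, `dim W a = a m + 1 - c` for `a ≫ 0`.  Then `R/(H)` is finite dimensional:
if `H ∈ W b` then `W (a+b) / (H W a)` has dimension `b m`, and it maps onto the image of `W (a+b)` in `R/(H)`;
an increasing union of subspaces of dimension `≤ b m` has dimension `≤ b m`. -/
theorem finite_quot_span_of_filtration [IsDomain R] (W : ℕ → Submodule k R) (hmono : Monotone W)
    (hex : ∀ r : R, ∃ a, r ∈ W a) (hmul : ∀ a b, ∀ r ∈ W a, ∀ s ∈ W b, r * s ∈ W (a + b))
    (m c a₀ : ℕ) (hdim : ∀ a, a₀ ≤ a → Module.Finite k (W a) ∧ Module.finrank k (W a) + c = a * m + 1)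
    (H : R) (hH : H ≠ 0) : Module.Finite k (R ⧸ Ideal.span {H}) := by
  obtain ⟨b, hHb⟩ := hex H
  let π : R →ₗ[k] R ⧸ Ideal.span {H} := (Ideal.Quotient.mkₐ k (Ideal.span {H})).toLinearMap
  have hπ : ∀ r, π r = Ideal.Quotient.mk (Ideal.span {H}) r := fun _ => rfl
  refine (ColenA4_finrank_le k (fun a => (W (b + (a + a₀))).map π) ?_ ?_ (b * m) ?_).1
  · intro a a' h
    exact Submodule.map_mono (hmono (by omega))
  · intro x
    obtain ⟨r, rfl⟩ := Ideal.Quotient.mk_surjective x
    obtain ⟨a, ha⟩ := hex r
    exact ⟨a, r, hmono (by omega) ha, rfl⟩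
  · intro a
    set A := a + a₀ with hA
    obtain ⟨hf1, hd1⟩ := hdim A (by omega)
    obtain ⟨hf2, hd2⟩ := hdim (b + A) (by omega)
    refine ⟨inferInstance, ?_⟩
    let f : W (b + A) →ₗ[k] R ⧸ Ideal.span {H} := π.domRestrict (W (b + A))
    let g : W A →ₗ[k] W (b + A) :=
      LinearMap.codRestrict (W (b + A)) ((LinearMap.mulLeft k H).domRestrict (W A))
        (fun x => hmul b A H hHb x x.2)
    have hg : Function.Injective g := by
      intro x y hxy
      have h1 : H * (x : R) = H * (y : R) := congrArg Subtype.val hxy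
      exact Subtype.ext (mul_left_cancel₀ hH h1)
    have hle : LinearMap.range g ≤ LinearMap.ker f := by
      rintro _ ⟨x, rfl⟩
      rw [LinearMap.mem_ker]
      show Ideal.Quotient.mk (Ideal.span {H}) (H * (x : R)) = 0
      rw [Ideal.Quotient.eq_zero_iff_mem]
      exact Ideal.mul_mem_right _ _ (Ideal.mem_span_singleton_self H)
    have h1 : Module.finrank k (W A) ≤ Module.finrank k (LinearMap.ker f) := by
      rw [← LinearMap.finrank_range_of_inj hg]
      exact Submodule.finrank_mono hle
    have h2 := LinearMap.finrank_range_add_finrank_ker f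
    have h3 : LinearMap.range f = (W (b + A)).map π := LinearMap.range_domRestrict _ _
    rw [h3] at h2
    have h4 : (b + A) * m = b * m + A * m := by ring
    omega

/-- an increasing union of subspaces of dimension `≤ d` is finite dimensional of dimension `≤ d`. -/
theorem finrank_le_of_iSup_le {V : Type*} [AddCommGroup V] [Module k V] (W : ℕ → Submodule k V)
    (hmono : Monotone W) (hex : ∀ x : V, ∃ a, x ∈ W a) (d : ℕ)
    (hd : ∀ a, Module.Finite k (W a) ∧ Module.finrank k (W a) ≤ d) :
    Module.Finite k V ∧ Module.finrank k V ≤ d := ColenA4_finrank_le k W hmono hex d hd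

end Fermat.Agent.CAR.RP
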