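import Fermat.Agent.CAR.RP.ColenA1
import Fermat.Agent.CAR.RP.ColenA2
import Fermat.Agent.CAR.RP.ColenA3
import Fermat.Agent.CAR.RP.ColenA4

/-! # CAR / RP-A : colength (collects A1-A4) -/
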