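import Fermat.Agent.CAR.RP.Defs

/-!
# CAR / RP-A1 : colength of ideals in a `k`-algebra: elementary facts, noetherian, dimension one, Dedekind (Mathlib only)
-/

set_option autoImplicit false

noncomputable section

namespace Fermat.Agent.CAR.RP

variable (k : Type*) [Field k] {R : Type*} [CommRing R] [Algebra k R]

/-! ## RP-A1 : elementary facts, noetherian, dimension one, Dedekind -/

theorem ColenA1_factor_surjective {I J : Ideal R} (h : I ≤ J) :
    Function.Surjective (Ideal.Quotient.factorₐ k h).toLinearMap :=
  Ideal.Quotient.factor_surjective h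

/-- `R/I → R/J` is onto. -/
theorem finite_quot_of_le {I J : Ideal R} (hI : Module.Finite k (R ⧸ I)) (h : I ≤ J) :
    Module.Finite k (R ⧸ J) :=
  Module.Finite.of_surjective _ (ColenA1_factor_surjective k h)

theorem colen_le_of_le {I J : Ideal R} (hI : Module.Finite k (R ⧸ I)) (h : I ≤ J) :
    colen k J ≤ colen k I :=
  LinearMap.finrank_le_finrank_of_surjective (ColenA1_factor_surjective k h)

/-- a surjection between spaces of the same finite dimension is injective. -/
theorem eq_of_le_of_colen_le {I J : Ideal R} (hI : Module.Finite k (R ⧸ I)) (h : I ≤ J)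
    (hc : colen k I ≤ colen k J) : I = J := by
  have hJ : Module.Finite k (R ⧸ J) := finite_quot_of_le k hI h
  have heq : Module.finrank k (R ⧸ I) = Module.finrank k (R ⧸ J) :=
    le_antisymm hc (colen_le_of_le k hI h)
  have hinj : Function.Injective (Ideal.Quotient.factorₐ k h).toLinearMap :=
    (LinearMap.injective_iff_surjective_of_finrank_eq_finrank heq).2
      (ColenA1_factor_surjective k h)
  refine le_antisymm h fun x hx => ?_
  rw [← Ideal.Quotient.eq_zero_iff_mem]
  apply hinj
  rw [map_zero]
  show Ideal.Quotient.factor h (Ideal.Quotient.mk I x) = 0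
  rw [Ideal.Quotient.factor_mk, Ideal.Quotient.eq_zero_iff_mem]
  exact hx

theorem finColen_of_span [IsDomain R]
    (h : ∀ H : R, H ≠ 0 → Module.Finite k (R ⧸ Ideal.span {H})) : FinColen k R := by
  intro I hI
  obtain ⟨H, hHI, hH0⟩ := Submodule.exists_mem_ne_zero_of_ne_bot hI
  exact finite_quot_of_le k (h H hH0) ((Ideal.span_singleton_le_iff_mem I).2 hHI)

/-- `I ∋ H ≠ 0`: `I/(H) ⊆ R/(H)` is finite dimensional, so `I` is generated by `H` and finitely many elements. -/
theorem isNoetherianRing_of_finColen (h : FinColen k R) : IsNoetherianRing R := by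
  rw [isNoetherianRing_iff_ideal_fg]
  intro I
  by_cases hI : I = ⊥
  · rw [hI]; exact Submodule.fg_bot
  obtain ⟨H, hHI, hH0⟩ := Submodule.exists_mem_ne_zero_of_ne_bot hI
  have hne : Ideal.span {H} ≠ ⊥ := by
    rw [Ne, Ideal.span_singleton_eq_bot]; exact hH0
  have hfin : Module.Finite k (R ⧸ Ideal.span {H}) := h _ hne
  have hN : IsNoetherian k (R ⧸ Ideal.span {H}) := inferInstance
  have hN' : IsNoetherian R (R ⧸ Ideal.span {H}) := isNoetherian_of_tower k hN
  refine Submodule.fg_of_fg_map_of_fg_inf_ker (Submodule.mkQ (Ideal.span {H}))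
    (IsNoetherian.noetherian _) ?_
  rw [Submodule.ker_mkQ, inf_eq_right.2 ((Ideal.span_singleton_le_iff_mem I).2 hHI)]
  exact Submodule.fg_span_singleton H

/-- `R/P` is a finite dimensional domain over `k`, hence a field. -/
theorem dimensionLEOne_of_finColen (h : FinColen k R) : Ring.DimensionLEOne R := by
  refine ⟨fun {P} hP0 hP => ?_⟩
  have hfin : Module.Finite k (R ⧸ P) := h P hP0
  have : IsDomain (R ⧸ P) := Ideal.Quotient.isDomain P
  have : Algebra.IsIntegral k (R ⧸ P) := Algebra.IsIntegral.of_finite k (R ⧸ P)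
  exact Ideal.Quotient.maximal_of_isField P
    (isField_of_isIntegral_of_isField' (Field.toIsField k))

theorem isDedekindDomain_of_finColen [IsDomain R] [IsIntegrallyClosed R] (h : FinColen k R) :
    IsDedekindDomain R :=
  { toIsDomain := inferInstance
    toIsDedekindRing :=
      { toIsNoetherian := isNoetherianRing_of_finColen k h
        toDimensionLEOne := dimensionLEOne_of_finColen k h
        toIsIntegralClosure := inferInstance } }

theorem ColenA1_algebraMap_bijective [IsAlgClosed k] (h : FinColen k R) (P : Ideal R)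
    (hP : P.IsMaximal) (hP0 : P ≠ ⊥) : Function.Bijective (algebraMap k (R ⧸ P)) := by
  have hfin : Module.Finite k (R ⧸ P) := h P hP0
  have : IsDomain (R ⧸ P) := Ideal.Quotient.isDomain P
  have : Algebra.IsIntegral k (R ⧸ P) := Algebra.IsIntegral.of_finite k (R ⧸ P)
  exact IsAlgClosed.algebraMap_bijective_of_isIntegral

/-- over an algebraically closed field all closed points are rational. -/
theorem colen_of_isMaximal [IsAlgClosed k] (h : FinColen k R) (P : Ideal R) (hP : P.IsMaximal)
    (hP0 : P ≠ ⊥) : colen k P = 1 := by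
  have hb := ColenA1_algebraMap_bijective k h P hP hP0
  have e : k ≃ₗ[k] (R ⧸ P) := LinearEquiv.ofBijective (Algebra.linearMap k (R ⧸ P)) hb
  unfold colen
  rw [← e.finrank_eq, Module.finrank_self]

/-- over an algebraically closed field: every element is congruent to a constant modulo a maximal ideal. -/
theorem exists_sub_algebraMap_mem [IsAlgClosed k] (h : FinColen k R) (P : Ideal R) (hP : P.IsMaximal)
    (hP0 : P ≠ ⊥) (r : R) : ∃ c : k, r - algebraMap k R c ∈ P := by
  obtain ⟨c, hc⟩ := (ColenA1_algebraMap_bijective k h P hP hP0).2 (Ideal.Quotient.mk P r)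
  refine ⟨c, ?_⟩
  rw [← Ideal.Quotient.eq, ← hc]
  rfl

end Fermat.Agent.CAR.RP
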