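import Fermat.Agent.CAR.RP.Closed
import Fermat.Agent.GAL.KLB.Count
import Fermat.Agent.GAL.CTV.SpanBar
import Fermat.Agent.GAL.CTV.UniquePole
import Fermat.Agent.GAL.CTV.IntVal

/-!
# CAR / RP-D1 : `R_(a m) = B̄_a` (unique pole)

Setting = hypotheses of `KLB.exists_redW_LL_eq` (abstract good reduction at level `M'`).
`Fb = CTV.Fbar hρ = range ρ`, `ξ = ρ x` (order `-m`), `ξ' = ρ x'` (order `-m+1`).
-/

set_option autoImplicit false

open Polynomial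

noncomputable section

namespace Fermat.Agent.CAR.RP

open Fermat.Agent.GAL.KL Fermat.Agent.GAL.KLC Fermat.Agent.GAL.KLB Fermat.Agent.GAL.CTV

variable {K F k Γ₀ : Type*} [Field K] [Field F] [Algebra K F] [Field k]
  [LinearOrderedCommGroupWithZero Γ₀] {v : Valuation F Γ₀} {ρ : v.integer →+* LaurentSeries k}

/-! ## RP-D1 : `R_(a m) = B̄_a` -/

theorem DimD1_coe_eval₂ (Fb : IntermediateField k (LaurentSeries k)) (t z : Fb) (p : k[X][X]) :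
    ((eval₂ ((aeval t : k[X] →ₐ[k] Fb) : k[X] →+* Fb) z p : Fb) : LaurentSeries k) =
      eval₂ ((aeval (t : LaurentSeries k) : k[X] →ₐ[k] LaurentSeries k) :
        k[X] →+* LaurentSeries k) (z : LaurentSeries k) p := by
  have h2 := Polynomial.hom_eval₂ p ((aeval t : k[X] →ₐ[k] Fb) : k[X] →+* Fb)
    (Fb.val : Fb →+* LaurentSeries k) z
  have h3 : ((Fb.val : Fb →+* LaurentSeries k).comp
      ((aeval t : k[X] →ₐ[k] Fb) : k[X] →+* Fb)) =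
      ((aeval (t : LaurentSeries k) : k[X] →ₐ[k] LaurentSeries k) :
        k[X] →+* LaurentSeries k) := by
    ext a
    · simp
    · simp
  rw [h3] at h2
  exact h2

theorem DimD1_order_inv {s : LaurentSeries k} (hs : s ≠ 0) : (s⁻¹).order = -s.order := by
  have h := HahnSeries.order_mul hs (inv_ne_zero hs)
  rw [mul_inv_cancel₀ hs, HahnSeries.order_one] at h
  omega

/-- integrality of an element of the subfield, tested in the subfield or in `k((Q))`. -/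
theorem isInt_coe_iff (Fb : IntermediateField k (LaurentSeries k)) (t z : Fb) :
    IsInt k (t : LaurentSeries k) (z : LaurentSeries k) ↔ IsInt k t z := by
  constructor
  · rintro ⟨p, hp, hz⟩
    refine ⟨p, hp, Subtype.ext ?_⟩
    rw [DimD1_coe_eval₂, hz]
    rfl
  · rintro ⟨p, hp, hz⟩
    refine ⟨p, hp, ?_⟩
    rw [← DimD1_coe_eval₂, hz]
    rfl

/-- **unique pole**: `φ ∈ R` with `ord φ ≥ -a m` ⇒ `ξ^{-a} φ` is integral over `k[ξ⁻¹]`.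
Proof: in `Fb` use `CTV.isInt_iff_forall_valuationSubring`: let `O ∋ ξ⁻¹`; if `ξ ∈ O` then `φ ∈ O` (integral over `k[ξ]`);
if `ξ ∉ O` then `CTV.unique_pole` (with `ι = Fb.val`, `u = ξ' ξ⁻¹`, `hspan = CTV.hspan_Fbar`) gives
`z ∈ O ↔ 0 ≤ ord z`. -/
theorem isInt_inv_of_coeff (hρ : IsRed K v ρ) {x x' : F} (hx : x ∈ v.integer) (hx' : x' ∈ v.integer)
    {m : ℕ} (hm : 0 < m) (hxo : (ρ ⟨x, hx⟩).order = -(m : ℤ))
    (hxo' : (ρ ⟨x', hx'⟩).order = -(m : ℤ) + 1)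
    (hSp : Spans K x (fun i : Fin m => x' ^ (i : ℕ))) (a : ℕ) {φ : LaurentSeries k}
    (hφ : φ ∈ RR (Fbar hρ) (ρ ⟨x, hx⟩)) (h0 : ∀ n : ℤ, n < -((a * m : ℕ) : ℤ) → φ.coeff n = 0) :
    IsInt k (ρ ⟨x, hx⟩)⁻¹ ((ρ ⟨x, hx⟩)⁻¹ ^ a * φ) := by
  set xb : Fbar hρ := ⟨ρ ⟨x, hx⟩, rho_mem_Fbar hρ _⟩ with hxb
  set xb' : Fbar hρ := ⟨ρ ⟨x', hx'⟩, rho_mem_Fbar hρ _⟩ with hxb'
  have hspan := hspan_Fbar hρ hx hx' hm hxo hxo' hSp
  have hx0 : ρ ⟨x, hx⟩ ≠ 0 := by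
    intro h0
    rw [h0, HahnSeries.order_zero] at hxo
    omega
  have hxo1 : ((Fbar hρ).val xb).order = -(m : ℤ) := hxo
  obtain ⟨ub, huo, hspan'⟩ : ∃ ub : Fbar hρ, ((Fbar hρ).val ub).order = 1 ∧
      ∀ z : Fbar hρ, ∃ (d : k[X]) (p : Fin m → k[X]), d ≠ 0 ∧
        aeval xb d * z = ∑ i, aeval xb (p i) * ub ^ (i : ℕ) := by
    by_cases hx0' : ρ ⟨x', hx'⟩ = 0
    · have hm1 : m = 1 := by
        rw [hx0', HahnSeries.order_zero] at hxo'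
        omega
      subst hm1
      refine ⟨xb⁻¹, ?_, fun z => ?_⟩
      · have h1 : (Fbar hρ).val xb⁻¹ = (ρ ⟨x, hx⟩)⁻¹ := rfl
        rw [h1, DimD1_order_inv hx0, hxo]
        simp
      · obtain ⟨d, p, hd, h⟩ := hspan z
        refine ⟨d, p, hd, ?_⟩
        rw [Fin.sum_univ_one] at h ⊢
        simpa using h
    · refine ⟨xb' * xb⁻¹, ?_, hspan⟩
      have h1 : (Fbar hρ).val (xb' * xb⁻¹) = ρ ⟨x', hx'⟩ * (ρ ⟨x, hx⟩)⁻¹ := rfl
      rw [h1, HahnSeries.order_mul hx0' (inv_ne_zero hx0), DimD1_order_inv hx0, hxo, hxo']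
      omega
  set φb : Fbar hρ := ⟨φ, hφ.1⟩ with hφb
  have hφint : IsInt k xb φb := (isInt_coe_iff (Fbar hρ) xb φb).1 hφ.2
  have hgoal : IsInt k xb⁻¹ (xb⁻¹ ^ a * φb) := by
    rw [isInt_iff_forall_valuationSubring]
    intro O hO hinv
    by_cases hxO : xb ∈ O
    · exact O.mul_mem _ _ (O.pow_mem hinv a)
        ((isInt_iff_forall_valuationSubring xb φb).1 hφint O hO hxO)
    · rw [unique_pole (Fbar hρ).val xb ub m hm hxo1 huo hspan' O hO hxO]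
      have h1 : (Fbar hρ).val (xb⁻¹ ^ a * φb) = (ρ ⟨x, hx⟩)⁻¹ ^ a * φ := rfl
      rw [h1]
      by_cases hφ0 : φ = 0
      · rw [hφ0, mul_zero, HahnSeries.order_zero]
      · rw [HahnSeries.order_mul (pow_ne_zero _ (inv_ne_zero hx0)) hφ0, HahnSeries.order_pow,
          DimD1_order_inv hx0, hxo]
        have h2 : ¬ φ.order < -((a * m : ℕ) : ℤ) := fun hlt =>
          hφ0 (HahnSeries.coeff_order_eq_zero.1 (h0 _ hlt))
        push_cast at h2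
        rw [nsmul_eq_mul, neg_neg]
        linarith
  exact (isInt_coe_iff (Fbar hρ) xb⁻¹ (xb⁻¹ ^ a * φb)).2 hgoal

theorem RN_mul_eq_Bbar (hρ : IsRed K v ρ) {x x' : F} (hx : x ∈ v.integer) (hx' : x' ∈ v.integer)
    {m : ℕ} (hm : 0 < m) (hxo : (ρ ⟨x, hx⟩).order = -(m : ℤ))
    (hxo' : (ρ ⟨x', hx'⟩).order = -(m : ℤ) + 1)
    (hSp : Spans K x (fun i : Fin m => x' ^ (i : ℕ))) (a : ℕ) :
    RN (Fbar hρ) (ρ ⟨x, hx⟩) (a * m) = Bbar hρ (ρ ⟨x, hx⟩) a := by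
  ext φ
  rw [mem_RN, mem_Bbar]
  constructor
  · rintro ⟨hφ, h0⟩
    exact ⟨⟨hφ.2, isInt_inv_of_coeff hρ hx hx' hm hxo hxo' hSp a hφ h0⟩, hφ.1⟩
  · rintro ⟨⟨h1, h2⟩, h3⟩
    exact ⟨⟨h3, h1⟩, coeff_eq_zero_of_isInt_inv hxo hm a h2⟩

end Fermat.Agent.CAR.RP
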