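import Fermat.Agent.CAR.RP.QuotB1
import Fermat.Agent.CAR.RP.QuotB2

/-! # CAR / RP-B (collects B1, B2) -/
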