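import Fermat.Agent.CAR.RP.Colen

/-!
# CAR / RP-B1 : "zeros = poles" in the chart ring of a curve
-/

set_option autoImplicit false

noncomputable section

namespace Fermat.Agent.CAR.RP

open Fermat.Agent.GAL.KL

variable {k : Type*} [Field k] {Fb : IntermediateField k (LaurentSeries k)} {ξ : LaurentSeries k}
  {g : ℕ}

/-! ## RP-B1 -/

theorem RN_mono (Fb : IntermediateField k (LaurentSeries k)) (ξ : LaurentSeries k) :
    Monotone (RN Fb ξ) := by
  intro N N' hN φ hφ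
  exact ⟨hφ.1, fun n hn => hφ.2 n (by omega)⟩

theorem mem_RN_iff_order {φ : LaurentSeries k} {N : ℕ} :
    φ ∈ RN Fb ξ N ↔ φ ∈ RR Fb ξ ∧ -(N : ℤ) ≤ φ.order := by
  rw [mem_RN]
  refine and_congr_right fun _ => ⟨fun h => ?_, fun h n hn => ?_⟩
  · rcases eq_or_ne φ 0 with rfl | h0
    · rw [HahnSeries.order_zero]; omega
    · by_contra hlt
      exact h0 (HahnSeries.coeff_order_eq_zero.mp (h _ (not_le.mp hlt)))
  · exact HahnSeries.coeff_eq_zero_of_lt_order (lt_of_lt_of_le hn h)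

/-- `φ ∈ R_N` for `N = max 0 (-ord φ)`. -/
theorem exists_mem_RN {φ : LaurentSeries k} (h : φ ∈ RR Fb ξ) : ∃ N, φ ∈ RN Fb ξ N :=
  ⟨(-φ.order).toNat, mem_RN_iff_order.mpr ⟨h, by omega⟩⟩

/-- multiplication by `H`, as a `k`-linear map. -/
def QuotB1_mul (H : LaurentSeries k) : LaurentSeries k →ₗ[k] LaurentSeries k where
  toFun φ := H * φ
  map_add' := mul_add H
  map_smul' c φ := by
    simp only [RingHom.id_apply, smul_eq_algebraMap_mul]
    ring

/-- multiplication by `H ∈ R` maps `R_N` to `R_N'` if `N - ord H ≤ N'`. -/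
theorem QuotB1_mul_mem {H φ : LaurentSeries k} (h : H ∈ RR Fb ξ) {N N' : ℕ}
    (hN : (N : ℤ) - H.order ≤ N') (hφ : φ ∈ RN Fb ξ N) : H * φ ∈ RN Fb ξ N' := by
  rw [mem_RN_iff_order] at hφ ⊢
  refine ⟨(RR Fb ξ).mul_mem h hφ.1, ?_⟩
  rcases eq_or_ne H 0 with rfl | hH
  · rw [zero_mul, HahnSeries.order_zero]; omega
  rcases eq_or_ne φ 0 with rfl | h0
  · rw [mul_zero, HahnSeries.order_zero]; omega
  rw [HahnSeries.order_mul hH h0]
  omega

/-- multiplication by `H`, `R_N → R_N'`. -/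
def QuotB1_mulR {H : LaurentSeries k} (h : H ∈ RR Fb ξ) {N N' : ℕ}
    (hN : (N : ℤ) - H.order ≤ N') : RN Fb ξ N →ₗ[k] RN Fb ξ N' :=
  (QuotB1_mul H).restrict fun _ hφ => QuotB1_mul_mem h hN hφ

theorem QuotB1_mulR_injective {H : LaurentSeries k} (h : H ∈ RR Fb ξ) (hH : H ≠ 0) {N N' : ℕ}
    (hN : (N : ℤ) - H.order ≤ N') : Function.Injective (QuotB1_mulR (Fb := Fb) (ξ := ξ) h hN) := by
  intro φ ψ hφψ
  have h1 : H * φ.1 = H * ψ.1 := congrArg Subtype.val hφψ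
  exact Subtype.ext (mul_left_cancel₀ hH h1)

/-- a nonzero element of the chart ring has no zero at `Q = 0`: if `d = ord H > 0` then `φ ↦ H φ` maps `R_(N+d)`
injectively into `R_N`, so `N + d + 1 - g ≤ N + 1 - g`. -/
theorem order_nonpos (hC : IsCurve Fb ξ g) {H : LaurentSeries k} (h : H ∈ RR Fb ξ) (hH : H ≠ 0) :
    H.order ≤ 0 := by
  by_contra hpos
  rw [not_le] at hpos
  obtain ⟨N₀, hN₀⟩ := hC
  obtain ⟨d, hd⟩ := Int.eq_ofNat_of_zero_le hpos.le
  obtain ⟨hf1, h1⟩ := hN₀ N₀ le_rfl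
  obtain ⟨hf2, h2⟩ := hN₀ (N₀ + d) (by omega)
  have hle := LinearMap.finrank_le_finrank_of_injective
    (QuotB1_mulR_injective (Fb := Fb) (ξ := ξ) (N := N₀ + d) (N' := N₀) h hH (by push_cast; omega))
  omega

/-- the inclusion `R_N → R`. -/
def QuotB1_incl (Fb : IntermediateField k (LaurentSeries k)) (ξ : LaurentSeries k) (N : ℕ) :
    RN Fb ξ N →ₗ[k] RR Fb ξ where
  toFun φ := ⟨φ.1, φ.2.1⟩
  map_add' _ _ := rfl
  map_smul' c φ := by
    apply Subtype.ext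
    simp only [RingHom.id_apply]
    show c • φ.1 = ((c • (⟨φ.1, φ.2.1⟩ : RR Fb ξ) : RR Fb ξ) : LaurentSeries k)
    rw [Algebra.smul_def, smul_eq_algebraMap_mul]
    rfl

/-- `R_N → R/(H)`. -/
def QuotB1_f (H : RR Fb ξ) (N : ℕ) : RN Fb ξ N →ₗ[k] (RR Fb ξ ⧸ Ideal.span {H}) :=
  (Ideal.Quotient.mkₐ k (Ideal.span {H})).toLinearMap ∘ₗ QuotB1_incl Fb ξ N

theorem QuotB1_f_apply (H : RR Fb ξ) (N : ℕ) (φ : RN Fb ξ N) :
    QuotB1_f H N φ = Ideal.Quotient.mk (Ideal.span {H}) ⟨φ.1, φ.2.1⟩ := rfl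

theorem QuotB1_ker (H : RR Fb ξ) (hH : H ≠ 0) {N N' : ℕ}
    (hN : (N : ℤ) - (H : LaurentSeries k).order = N') :
    LinearMap.ker (QuotB1_f H N') = LinearMap.range (QuotB1_mulR H.2 hN.le) := by
  have hH' : (H : LaurentSeries k) ≠ 0 := fun h => hH (Subtype.ext h)
  ext φ
  rw [LinearMap.mem_ker, QuotB1_f_apply, Ideal.Quotient.eq_zero_iff_mem,
    Ideal.mem_span_singleton', LinearMap.mem_range]
  constructor
  · rintro ⟨r, hr⟩
    have hr' : (r : LaurentSeries k) * H = φ.1 := congrArg Subtype.val hr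
    have hφ := (mem_RN_iff_order.mp φ.2).2
    refine ⟨⟨r.1, mem_RN_iff_order.mpr ⟨r.2, ?_⟩⟩, Subtype.ext ?_⟩
    · rcases eq_or_ne (r : LaurentSeries k) 0 with h0 | h0
      · rw [h0, HahnSeries.order_zero]; omega
      · rw [← hr', HahnSeries.order_mul h0 hH'] at hφ
        omega
    · show (H : LaurentSeries k) * r.1 = φ.1
      rw [mul_comm, hr']
  · rintro ⟨ψ, hψ⟩
    refine ⟨⟨ψ.1, ψ.2.1⟩, Subtype.ext ?_⟩
    have : (H : LaurentSeries k) * ψ.1 = φ.1 := congrArg Subtype.val hψ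
    show ψ.1 * (H : LaurentSeries k) = φ.1
    rw [mul_comm, this]

theorem QuotB1_range_mono (H : RR Fb ξ) {N N' : ℕ} (h : N ≤ N') :
    LinearMap.range (QuotB1_f H N) ≤ LinearMap.range (QuotB1_f H N') := by
  rintro _ ⟨φ, rfl⟩
  exact ⟨⟨φ.1, RN_mono Fb ξ h φ.2⟩, rfl⟩

/-- **zeros = poles.**  Put `d = -ord H`.  For `N ≥ N₀`: `φ ↦ H φ` maps `R_N` injectively into `R_(N+d)` and
`H R ∩ R_(N+d) = H R_N` (orders add), so the image of `R_(N+d)` in `R/(H)` has dimension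
`(N+d+1-g) - (N+1-g) = d`; these images increase and exhaust `R/(H)`. -/
theorem finrank_quot_span (hC : IsCurve Fb ξ g) (H : RR Fb ξ) (hH : H ≠ 0) :
    Module.Finite k (RR Fb ξ ⧸ Ideal.span {H}) ∧
      (colen k (Ideal.span {H}) : ℤ) = -(H : LaurentSeries k).order := by
  have hH' : (H : LaurentSeries k) ≠ 0 := fun h => hH (Subtype.ext h)
  have hord := order_nonpos hC H.2 hH'
  obtain ⟨N₀, hN₀⟩ := hC
  obtain ⟨d, hd⟩ := Int.eq_ofNat_of_zero_le (neg_nonneg.mpr hord)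
  -- the dimension of the image of `R_(N+d)`
  have hdim : ∀ N, N₀ ≤ N → Module.finrank k (LinearMap.range (QuotB1_f H (N + d))) = d := by
    intro N hN
    obtain ⟨hf1, h1⟩ := hN₀ N hN
    obtain ⟨hf2, h2⟩ := hN₀ (N + d) (by omega)
    have hNd : (N : ℤ) - (H : LaurentSeries k).order = ((N + d : ℕ) : ℤ) := by push_cast; omega
    have h3 := LinearMap.finrank_range_add_finrank_ker (QuotB1_f H (N + d))
    rw [QuotB1_ker H hH hNd,
      LinearMap.finrank_range_of_inj (QuotB1_mulR_injective H.2 hH' hNd.le)] at h3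
    omega
  obtain ⟨hf0, -⟩ := hN₀ (N₀ + d) (by omega)
  -- surjectivity
  have hsurj : LinearMap.range (QuotB1_f H (N₀ + d)) = ⊤ := by
    rw [eq_top_iff]
    rintro x -
    obtain ⟨r, rfl⟩ := Ideal.Quotient.mk_surjective x
    obtain ⟨N, hN⟩ := exists_mem_RN r.2
    obtain ⟨hf3, -⟩ := hN₀ (max N N₀ + d) (by omega)
    have hle := QuotB1_range_mono H (show N₀ + d ≤ max N N₀ + d by omega)
    have heq := Submodule.eq_of_le_of_finrank_eq hle
      (by rw [hdim N₀ le_rfl, hdim (max N N₀) (le_max_right _ _)])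
    rw [heq]
    exact ⟨⟨r.1, RN_mono Fb ξ (show N ≤ max N N₀ + d by omega) hN⟩, rfl⟩
  have hfin : Module.Finite k (RR Fb ξ ⧸ Ideal.span {H}) :=
    Module.Finite.of_surjective _ (LinearMap.range_eq_top.mp hsurj)
  refine ⟨hfin, ?_⟩
  have h4 := hdim N₀ le_rfl
  rw [hsurj, finrank_top] at h4
  unfold colen
  rw [h4, hd]

theorem finColen_RR (hC : IsCurve Fb ξ g) : FinColen k (RR Fb ξ) :=
  finColen_of_span k fun H hH => (finrank_quot_span hC H hH).1

end Fermat.Agent.CAR.RP
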